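/-
S24, modular side: shared definitions (generators of the function field, evaluation maps,
local coordinates).  Definitional glue only.
-/
import Fermat.Agent.S24.Defs
import Fermat.Agent.S23.JN

set_option autoImplicit false

noncomputable section

open scoped MatrixGroups
open UpperHalfPlane ModularCurve

namespace Fermat.Agent.S24

/-- Index type of the generators `j(d z)`, `d ∣ N`, of the function field. -/
abbrev Dv (N : ℕ) : Type := {d : ℕ // d ∣ N}

theorem Dv.ne_zero {N : ℕ} [NeZero N] (d : Dv N) : d.1 ≠ 0 :=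
  fun h => NeZero.ne N (Nat.eq_zero_of_zero_dvd (h ▸ d.2))

/-- The formal `q`-expansion of `j(d z)` over `ℚ` (for `d ∣ N`, `N ≠ 0`). -/
def jqd {N : ℕ} [NeZero N] (d : Dv N) : LaurentSeries ℚ :=
  haveI : NeZero d.1 := ⟨d.ne_zero⟩
  qExpand ℚ d.1 jq

theorem jqd_mem_full {N : ℕ} [NeZero N] (d : Dv N) : jqd d ∈ modularFunctionFieldFull N := by
  haveI : NeZero d.1 := ⟨d.ne_zero⟩
  exact ModularCurve.jqd_mem_full N d.2

/-- The function field of `X₀(N)` over a field `L` of characteristic zero, as a subfield of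
`L((q))`.  For `L = AlgebraicClosure ℚ` this is (definitionally) the frozen
`ModularCurve.modularFunctionFieldBar N`. -/
abbrev FF (L : Type*) [Field L] [Algebra ℚ L] (N : ℕ) : IntermediateField L (LaurentSeries L) :=
  laurentBaseChange L (modularFunctionFieldFull N)

/-- The generators `j(d z)`, `d ∣ N`, of the function field of `X₀(N)` over `L`. -/
def gen (L : Type*) [Field L] [Algebra ℚ L] (N : ℕ) [NeZero N] (d : Dv N) : ↥(FF L N) :=
  ⟨coeffEmb L (jqd d), coeffEmb_mem_laurentBaseChange L (jqd_mem_full d)⟩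

/-- Evaluation of polynomials at the generators, inside the function field. -/
def evalL (L : Type*) [Field L] [Algebra ℚ L] (N : ℕ) [NeZero N] :
    MvPolynomial (Dv N) L →ₐ[L] ↥(FF L N) :=
  MvPolynomial.aeval (gen L N)

/-- The `j`-invariant as an element of the function field of `X₀(N)` over `L`. -/
def jElt (L : Type*) [Field L] [Algebra ℚ L] (N : ℕ) [NeZero N] : ↥(FF L N) :=
  gen L N ⟨1, one_dvd N⟩

/-- Evaluation of complex polynomials at the formal `q`-expansions of the `j(d z)`. -/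
def evalSer (N : ℕ) [NeZero N] : MvPolynomial (Dv N) ℂ →ₐ[ℂ] LaurentSeries ℂ :=
  MvPolynomial.aeval fun d : Dv N => coeffEmb ℂ (jqd d)

/-- Evaluation of complex polynomials at the functions `z ↦ j(d z)`. -/
def evalFun (N : ℕ) : MvPolynomial (Dv N) ℂ →ₐ[ℂ] (ℍ → ℂ) :=
  MvPolynomial.aeval fun d : Dv N => S23.JN.jN d.1

/-- The Cayley parametrisation of a neighbourhood of `z₀` by a neighbourhood of `0`:
`u ↦ (z₀ - conj z₀ * u) / (1 - u)`, inverse to `z ↦ (z - z₀) / (z - conj z₀)`. -/
def cay (z₀ : ℍ) (u : ℂ) : ℂ :=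
  ((z₀ : ℂ) - (starRingEnd ℂ) (z₀ : ℂ) * u) / (1 - u)

/-- Taylor series at `z₀` of a function on the upper half plane, in the Cayley coordinate. -/
def taylorAt (z₀ : ℍ) (f : ℍ → ℂ) : PowerSeries ℂ :=
  PowerSeries.mk fun n =>
    ((n.factorial : ℂ))⁻¹ * iteratedDeriv n (fun u : ℂ => f (ofComplex (cay z₀ u))) 0

/-- The elliptic point of order three, `ρ = e^{2πi/3}`. -/
def rho : ℍ :=
  ⟨⟨-1 / 2, Real.sqrt 3 / 2⟩, by
    show (0 : ℝ) < Real.sqrt 3 / 2
    positivity⟩

end Fermat.Agent.S24

end
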