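/-
S24 piece B1 (BRIDGE): kernel statement.  A polynomial relation between the formal `q`-expansions
`jq (q ^ d)`, `d ∣ N`, holds if and only if it holds between the functions `z ↦ j (d z)`.
-/
import Fermat.Agent.S24.Mod.Defs
import Fermat.Agent.S24.QL

set_option autoImplicit false

noncomputable section

open scoped MatrixGroups
open UpperHalfPlane ModularCurve

namespace Fermat.Agent.S24.Bridge

open Fermat.Agent.S24.QL

/-- The polynomial expressions in the `j (d z)` have the Laurent expansions given by the same
polynomial expressions in the `jq (q ^ d)`. -/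
theorem hasQL_eval (N : ℕ) [NeZero N] (G : MvPolynomial (Dv N) ℂ) :
    HasQL (evalFun N G) (evalSer N G) := by
  refine hasQL_mvAeval G (f := fun d : Dv N => S23.JN.jN d.1)
    (L := fun d : Dv N => coeffEmb ℂ (jqd d)) (fun d => ?_)
  have : NeZero d.1 := ⟨d.ne_zero⟩
  exact hasQL_jN d.1

theorem bridge (N : ℕ) [NeZero N] (G : MvPolynomial (Dv N) ℂ) :
    evalSer N G = 0 ↔ evalFun N G = 0 :=
  (hasQL_eval N G).eq_zero_iff.symm

theorem coeffMap_injective {R S : Type*} [CommRing R] [CommRing S] (f : R →+* S)
    (hf : Function.Injective f) : Function.Injective (coeffMap f) := by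
  intro x y h
  ext k
  apply hf
  have h1 := congrArg (fun z : LaurentSeries S => z.coeff k) h
  simpa using h1

theorem coeffMap_coeffEmb' {L : Type*} [Field L] [Algebra ℚ L] (ι : L →+* ℂ)
    (x : LaurentSeries ℚ) : coeffMap ι (coeffEmb L x) = coeffEmb ℂ x := by
  rw [coeffEmb, coeffMap_coeffMap]
  exact coeffMap_congr (Subsingleton.elim _ _) x

theorem coeffMap_algebraMap' {L : Type*} [Field L] (ι : L →+* ℂ) (c : L) :
    coeffMap ι (algebraMap L (LaurentSeries L) c) = algebraMap ℂ (LaurentSeries ℂ) (ι c) := by
  rw [algebraMap_laurentSeries_eq_single, algebraMap_laurentSeries_eq_single, coeffMap_single]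

theorem coe_evalL' {L : Type*} [Field L] [Algebra ℚ L] (N : ℕ) [NeZero N]
    (P : MvPolynomial (Dv N) L) :
    ((evalL L N P : ↥(FF L N)) : LaurentSeries L) =
      MvPolynomial.aeval (fun d : Dv N => coeffEmb L (jqd d)) P := by
  have h := MvPolynomial.comp_aeval (R := L) (gen L N) (FF L N).val
  exact AlgHom.congr_fun h P

/-- Base change of the evaluation at the formal generators. -/
theorem coeffMap_evalL {L : Type*} [Field L] [Algebra ℚ L] (ι : L →+* ℂ) (N : ℕ) [NeZero N]
    (P : MvPolynomial (Dv N) L) :
    coeffMap ι ((evalL L N P : ↥(FF L N)) : LaurentSeries L) =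
      evalSer N (MvPolynomial.map ι P) := by
  rw [coe_evalL']
  induction P using MvPolynomial.induction_on with
  | C c =>
    rw [MvPolynomial.map_C, evalSer, MvPolynomial.aeval_C, MvPolynomial.aeval_C]
    exact coeffMap_algebraMap' ι c
  | add p q hp hq =>
    rw [map_add, map_add, map_add, map_add, hp, hq]
  | mul_X p d hp =>
    rw [map_mul, map_mul, map_mul, map_mul, MvPolynomial.map_X, hp, evalSer,
      MvPolynomial.aeval_X, MvPolynomial.aeval_X, coeffMap_coeffEmb']

theorem bridgeL {L : Type*} [Field L] [Algebra ℚ L] (ι : L →+* ℂ) (N : ℕ) [NeZero N]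
    (P : MvPolynomial (Dv N) L) :
    evalL L N P = 0 ↔ evalFun N (MvPolynomial.map ι P) = 0 := by
  rw [← bridge, ← coeffMap_evalL]
  constructor
  · intro h
    rw [h]
    exact map_zero _
  · intro h
    apply Subtype.ext
    apply coeffMap_injective ι ι.injective
    rw [h]
    exact (map_zero _).symm

end Fermat.Agent.S24.Bridge

end
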