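/-
S24 piece BX (EXT): ring homomorphisms out of the function field `FF L N` are determined by,
and can be constructed from, their values on polynomials in the generators.

Every element of `FF L N` is a quotient of two polynomials (with coefficients in `L`) in the
generators `j(d z)`, `d ∣ N`: the set of such quotients is a subfield of `L((q))` containing `L`
and the image of `modularFunctionFieldFull N` under `coeffEmb L`.  A ring hom `φ` on polynomials
with the same kernel as `evalL L N` therefore descends to the function field by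
`P / Q ↦ φ P / φ Q`.
-/
import Fermat.Agent.S24.Mod.Defs

set_option autoImplicit false

noncomputable section

open scoped MatrixGroups
open UpperHalfPlane ModularCurve

namespace Fermat.Agent.S24.Ext

variable (L : Type*) [Field L] [Algebra ℚ L]

/-- the generators as Laurent series -/
def genS (N : ℕ) [NeZero N] (d : Dv N) : LaurentSeries L := coeffEmb L (jqd d)

/-- quotients of polynomials in the generators -/
def IsFrac (N : ℕ) [NeZero N] (x : LaurentSeries L) : Prop :=
  ∃ P Q : MvPolynomial (Dv N) L, MvPolynomial.aeval (genS L N) Q ≠ 0 ∧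
    x = MvPolynomial.aeval (genS L N) P / MvPolynomial.aeval (genS L N) Q

variable {L}

theorem isFrac_aeval {N : ℕ} [NeZero N] (P : MvPolynomial (Dv N) L) :
    IsFrac L N (MvPolynomial.aeval (genS L N) P) :=
  ⟨P, 1, by simp, by simp⟩

theorem IsFrac.add {N : ℕ} [NeZero N] {x y : LaurentSeries L} (hx : IsFrac L N x)
    (hy : IsFrac L N y) : IsFrac L N (x + y) := by
  obtain ⟨P, Q, hQ, rfl⟩ := hx
  obtain ⟨P', Q', hQ', rfl⟩ := hy
  refine ⟨P * Q' + Q * P', Q * Q', ?_, ?_⟩
  · rw [map_mul]
    exact mul_ne_zero hQ hQ'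
  · rw [div_add_div _ _ hQ hQ']
    simp only [map_add, map_mul]

theorem IsFrac.mul {N : ℕ} [NeZero N] {x y : LaurentSeries L} (hx : IsFrac L N x)
    (hy : IsFrac L N y) : IsFrac L N (x * y) := by
  obtain ⟨P, Q, hQ, rfl⟩ := hx
  obtain ⟨P', Q', hQ', rfl⟩ := hy
  refine ⟨P * P', Q * Q', ?_, ?_⟩
  · rw [map_mul]
    exact mul_ne_zero hQ hQ'
  · rw [div_mul_div_comm]
    simp only [map_mul]

theorem IsFrac.inv {N : ℕ} [NeZero N] {x : LaurentSeries L} (hx : IsFrac L N x) :
    IsFrac L N x⁻¹ := by
  obtain ⟨P, Q, hQ, rfl⟩ := hx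
  by_cases hP : MvPolynomial.aeval (genS L N) P = 0
  · refine ⟨0, 1, by simp, ?_⟩
    rw [hP]
    simp
  · exact ⟨Q, P, hP, by rw [inv_div]⟩

theorem coeffEmb_algebraMap (q : ℚ) :
    coeffEmb L (algebraMap ℚ (LaurentSeries ℚ) q) =
      algebraMap L (LaurentSeries L) (algebraMap ℚ L q) := by
  rw [algebraMap_laurentSeries_eq_single, algebraMap_laurentSeries_eq_single, coeffEmb,
    coeffMap_single]

theorem isFrac_coeffEmb {N : ℕ} [NeZero N] {x : LaurentSeries ℚ}
    (hx : x ∈ modularFunctionFieldFull N) : IsFrac L N (coeffEmb L x) := by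
  unfold modularFunctionFieldFull at hx
  induction hx using IntermediateField.adjoin_induction with
  | mem x hx =>
    obtain ⟨d, hne, hd, rfl⟩ := hx
    have := isFrac_aeval (L := L) (MvPolynomial.X (⟨d, hd⟩ : Dv N))
    rw [MvPolynomial.aeval_X] at this
    exact this
  | algebraMap q =>
    rw [coeffEmb_algebraMap]
    have := isFrac_aeval (L := L) (N := N) (MvPolynomial.C (algebraMap ℚ L q))
    rw [MvPolynomial.aeval_C] at this
    exact this
  | add x y _ _ hx hy =>
    rw [map_add]
    exact hx.add hy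
  | inv x _ hx =>
    rw [map_inv₀]
    exact hx.inv
  | mul x y _ _ hx hy =>
    rw [map_mul]
    exact hx.mul hy

theorem isFrac_of_mem {N : ℕ} [NeZero N] {x : LaurentSeries L} (hx : x ∈ FF L N) :
    IsFrac L N x := by
  unfold FF laurentBaseChange at hx
  induction hx using IntermediateField.adjoin_induction with
  | mem x hx =>
    obtain ⟨y, hy, rfl⟩ := hx
    exact isFrac_coeffEmb hy
  | algebraMap c =>
    have := isFrac_aeval (L := L) (N := N) (MvPolynomial.C c)
    rw [MvPolynomial.aeval_C] at this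
    exact this
  | add x y _ _ hx hy => exact hx.add hy
  | inv x _ hx => exact hx.inv
  | mul x y _ _ hx hy => exact hx.mul hy

theorem coe_evalL {N : ℕ} [NeZero N] (P : MvPolynomial (Dv N) L) :
    ((evalL L N P : ↥(FF L N)) : LaurentSeries L) = MvPolynomial.aeval (genS L N) P := by
  have h := MvPolynomial.comp_aeval (R := L) (gen L N) (FF L N).val
  have h2 := AlgHom.congr_fun h P
  exact h2

variable (L)

/-- Every element of the function field is a quotient of polynomials in the generators. -/
theorem exists_eq_div (N : ℕ) [NeZero N] (f : ↥(FF L N)) :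
    ∃ P Q : MvPolynomial (Dv N) L, evalL L N Q ≠ 0 ∧ f = evalL L N P / evalL L N Q := by
  obtain ⟨P, Q, hQ, h⟩ := isFrac_of_mem f.2
  refine ⟨P, Q, ?_, ?_⟩
  · intro h0
    apply hQ
    rw [← coe_evalL, h0]
    rfl
  · apply Subtype.ext
    rw [IntermediateField.coe_div, coe_evalL, coe_evalL]
    exact h

theorem exists_hom (N : ℕ) [NeZero N] {𝕃 : Type*} [Field 𝕃]
    (φ : MvPolynomial (Dv N) L →+* 𝕃) (h : ∀ P, evalL L N P = 0 ↔ φ P = 0) :
    ∃ τ : ↥(FF L N) →+* 𝕃, ∀ P, τ (evalL L N P) = φ P := by
  choose Pf Qf hQf hf using exists_eq_div L N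
  have hφ : ∀ Q, evalL L N Q ≠ 0 → φ Q ≠ 0 := fun Q hQ h0 => hQ ((h Q).mpr h0)
  have key : ∀ (f : ↥(FF L N)) (P Q : MvPolynomial (Dv N) L), evalL L N Q ≠ 0 →
      f = evalL L N P / evalL L N Q → φ (Pf f) / φ (Qf f) = φ P / φ Q := by
    intro f P Q hQ hfPQ
    rw [div_eq_div_iff (hφ _ (hQf f)) (hφ _ hQ)]
    have h1 : evalL L N P / evalL L N Q = evalL L N (Pf f) / evalL L N (Qf f) :=
      hfPQ.symm.trans (hf f)
    rw [div_eq_div_iff hQ (hQf f)] at h1
    have e : evalL L N (Pf f * Q - P * Qf f) = 0 := by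
      rw [map_sub, map_mul, map_mul, sub_eq_zero, h1]
    have e2 := (h _).mp e
    rw [map_sub, map_mul, map_mul, sub_eq_zero] at e2
    exact e2
  refine ⟨{ toFun := fun f => φ (Pf f) / φ (Qf f)
            map_one' := ?_
            map_mul' := ?_
            map_zero' := ?_
            map_add' := ?_ }, ?_⟩
  · have := key 1 1 1 (by rw [map_one]; exact one_ne_zero) (by rw [map_one, div_one])
    rw [this, map_one, div_one]
  · intro f g
    have := key (f * g) (Pf f * Pf g) (Qf f * Qf g)
      (by rw [map_mul]; exact mul_ne_zero (hQf f) (hQf g))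
      (by rw [map_mul, map_mul, ← div_mul_div_comm, ← hf f, ← hf g])
    rw [this, map_mul, map_mul, div_mul_div_comm]
  · have := key 0 0 1 (by rw [map_one]; exact one_ne_zero) (by rw [map_zero, zero_div])
    rw [this, map_zero, zero_div]
  · intro f g
    have := key (f + g) (Pf f * Qf g + Qf f * Pf g) (Qf f * Qf g)
      (by rw [map_mul]; exact mul_ne_zero (hQf f) (hQf g))
      (by rw [map_add, map_mul, map_mul, map_mul, ← div_add_div _ _ (hQf f) (hQf g), ← hf f,
        ← hf g])
    rw [this, map_add, map_mul, map_mul, map_mul,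
      div_add_div _ _ (hφ _ (hQf f)) (hφ _ (hQf g))]
  · intro P
    have := key (evalL L N P) P 1 (by rw [map_one]; exact one_ne_zero) (by rw [map_one, div_one])
    change φ (Pf (evalL L N P)) / φ (Qf (evalL L N P)) = φ P
    rw [this, map_one, div_one]

theorem hom_ext (N : ℕ) [NeZero N] {𝕃 : Type*} [Field 𝕃] (τ τ' : ↥(FF L N) →+* 𝕃)
    (h : ∀ P, τ (evalL L N P) = τ' (evalL L N P)) : τ = τ' := by
  apply RingHom.ext
  intro f
  obtain ⟨P, Q, -, rfl⟩ := exists_eq_div L N f
  rw [map_div₀, map_div₀, h P, h Q]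

theorem evalL_X (N : ℕ) [NeZero N] (d : Dv N) : evalL L N (MvPolynomial.X d) = gen L N d := by
  unfold evalL
  rw [MvPolynomial.aeval_X]

theorem evalL_C (N : ℕ) [NeZero N] (c : L) :
    evalL L N (MvPolynomial.C c) = algebraMap L ↥(FF L N) c := by
  unfold evalL
  rw [MvPolynomial.aeval_C]

end Fermat.Agent.S24.Ext

end
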