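/-
S24 piece B3 (CUSP), `LocalDatum` form: expansion embeddings of the function field of `X₀(N)` at
the cusps in `u = q^{1/N}`, and the resulting local uniformisation datum at `1 / j`.

Method (series level, no germs of meromorphic functions).  `HasU F E` says that the function
`F : ℍ → ℂ` is the sum of the Laurent series `E` in `q = exp (2 π i z)` (after clearing the pole
by a power of `q`); it is built on `S23.QCalc.HasQ` and is stable under ring operations, under
translations `z ↦ z + b` (`twist`: the substitution `q ↦ ξ q`) and dilations `z ↦ e z`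
(`qExpand e`), and the expansion is unique.  By `S23.JN.exists_aff_of_smul`,
`j (d (γ (N z))) = j (e z + b)` for suitable `e ∈ ℕ`, `b ∈ ℚ`, so all translates of the generators
have expansions (`exists_hasU_jN`); `Bridge.bridgeL` and `Ext.exists_hom` turn them into ring
embeddings `tauG γ` of the function field, `f ↦ "(f ∘ γ)(N z)"`.
-/
import Fermat.Agent.S24.Mod.Defs
import Fermat.Agent.S24.Mod.Bridge
import Fermat.Agent.S24.Mod.Ext
import Fermat.Agent.S23.QCalc
import Fermat.Agent.S24.JqBridge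
import Fermat.Prelude.Def_ModularCurve_X0ModL

set_option autoImplicit false

noncomputable section

open scoped MatrixGroups Real
open UpperHalfPlane ModularCurve Filter Topology HahnSeries Function

namespace Fermat.Agent.S24.Cusp


open Fermat.Agent.S23 Fermat.Agent.S23.QCalc

/-! ### The substitution `u ↦ ξ u` on Laurent series -/

/-- The substitution `u ↦ ξ u` on Laurent series (`ξ ≠ 0`): the coefficient of `u ^ k` is
multiplied by `ξ ^ k`. -/
def twist (ξ : ℂ) (hξ : ξ ≠ 0) : LaurentSeries ℂ →+* LaurentSeries ℂ where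
  toFun x := ⟨fun k => ξ ^ k * x.coeff k, x.isPWO_support.mono (fun k hk => by
    simp only [Function.mem_support, ne_eq, mul_eq_zero, not_or] at hk
    exact hk.2)⟩
  map_one' := by
    ext k
    by_cases hk : k = 0
    · subst hk; simp
    · simp [HahnSeries.coeff_one, hk]
  map_mul' x y := by
    ext k
    simp only [HahnSeries.coeff_mul, Finset.mul_sum]
    refine Finset.sum_congr ?_ fun ij hij => ?_
    · ext ij
      simp only [Finset.mem_antidiagonal, HahnSeries.mem_support, ne_eq, mul_eq_zero, not_or,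
        zpow_ne_zero _ hξ, not_false_eq_true, true_and]
    · rw [Finset.mem_antidiagonal] at hij
      rw [← hij.2.2, zpow_add₀ hξ]
      ring
  map_zero' := by
    ext k
    simp
  map_add' x y := by
    ext k
    simp [mul_add]

@[simp]
theorem twist_coeff (ξ : ℂ) (hξ : ξ ≠ 0) (x : LaurentSeries ℂ) (k : ℤ) :
    (twist ξ hξ x).coeff k = ξ ^ k * x.coeff k := rfl

theorem twist_single (ξ : ℂ) (hξ : ξ ≠ 0) (k : ℤ) (c : ℂ) :
    twist ξ hξ (single k c) = single k (ξ ^ k * c) := by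
  ext m
  rw [twist_coeff]
  rcases eq_or_ne m k with rfl | hm
  · simp
  · simp [HahnSeries.coeff_single_of_ne hm]

theorem twist_ofPowerSeries (ξ : ℂ) (hξ : ξ ≠ 0) (P : PowerSeries ℂ) :
    twist ξ hξ (ofPowerSeries ℤ ℂ P) = ofPowerSeries ℤ ℂ (PowerSeries.rescale ξ P) := by
  ext k
  rw [twist_coeff]
  rcases le_or_gt 0 k with hk | hk
  · lift k to ℕ using hk
    rw [HahnSeries.ofPowerSeries_apply_coeff, HahnSeries.ofPowerSeries_apply_coeff,
      PowerSeries.coeff_rescale, zpow_natCast]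
  · rw [ofPowerSeries_coeff_of_neg _ hk, ofPowerSeries_coeff_of_neg _ hk, mul_zero]

theorem qExpand_ofPowerSeries (e : ℕ) [NeZero e] (P : PowerSeries ℂ) :
    qExpand ℂ e (ofPowerSeries ℤ ℂ P) = ofPowerSeries ℤ ℂ (PowerSeries.expand e (NeZero.ne e) P) := by
  ext k
  by_cases hk : (e : ℤ) ∣ k
  · obtain ⟨m, rfl⟩ := hk
    rw [qExpand_coeff_mul]
    rcases le_or_gt 0 m with hm | hm
    · lift m to ℕ using hm
      rw [HahnSeries.ofPowerSeries_apply_coeff, show (e : ℤ) * (m : ℤ) = ((e * m : ℕ) : ℤ) by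
        push_cast; ring, HahnSeries.ofPowerSeries_apply_coeff, PowerSeries.coeff_expand_mul]
    · have he : (0 : ℤ) < e := by exact_mod_cast Nat.pos_of_ne_zero (NeZero.ne e)
      rw [ofPowerSeries_coeff_of_neg _ hm, ofPowerSeries_coeff_of_neg _ (mul_neg_of_pos_of_neg he hm)]
  · rw [qExpand_coeff_of_not_dvd _ _ hk]
    rcases le_or_gt 0 k with hk0 | hk0
    · lift k to ℕ using hk0
      rw [HahnSeries.ofPowerSeries_apply_coeff, PowerSeries.coeff_expand_of_not_dvd]
      intro h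
      exact hk (Int.natCast_dvd_natCast.mpr h)
    · rw [ofPowerSeries_coeff_of_neg _ hk0]



/-! ### Laurent `q`-expansions of functions on the upper half plane -/

/-- `F` is the sum of the Laurent series `E` in `q = exp (2 π i z)` on the upper half plane
(after clearing the pole with a power of `q`). -/
def HasU (F : ℍ → ℂ) (E : LaurentSeries ℂ) : Prop :=
  ∃ (M : ℕ) (P : PowerSeries ℂ), E * single (M : ℤ) (1 : ℂ) = ofPowerSeries ℤ ℂ P ∧
    HasQ (fun z => F z * Periodic.qParam 1 (z : ℂ) ^ M) P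

theorem hasQ_q : HasQ (fun z => Periodic.qParam 1 (z : ℂ)) PowerSeries.X := fun z => by
  have h := hasSum_ite_eq (1 : ℕ) (Periodic.qParam 1 (z : ℂ))
  refine h.congr_fun fun n => ?_
  rw [PowerSeries.coeff_X]
  split_ifs with hn
  · subst hn; simp
  · simp

theorem hasQ_qpow (k : ℕ) : HasQ (fun z => Periodic.qParam 1 (z : ℂ) ^ k) (PowerSeries.X ^ k) :=
  (hasQ_q.pow k).congr fun z => by simp

theorem HasU.congr {F G : ℍ → ℂ} {E : LaurentSeries ℂ} (hF : HasU F E) (h : ∀ z, F z = G z) :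
    HasU G E := by
  have : F = G := funext h
  rwa [← this]

theorem HasU.add {F G : ℍ → ℂ} {E E' : LaurentSeries ℂ} (hF : HasU F E) (hG : HasU G E') :
    HasU (fun z => F z + G z) (E + E') := by
  obtain ⟨M, P, hE, hP⟩ := hF
  obtain ⟨M', P', hE', hP'⟩ := hG
  refine ⟨M + M', PowerSeries.X ^ M' * P + PowerSeries.X ^ M * P', ?_, ?_⟩
  · have hs : (single ((M + M' : ℕ) : ℤ) (1 : ℂ) : LaurentSeries ℂ)
        = single (M : ℤ) 1 * single (M' : ℤ) 1 := by
      rw [HahnSeries.single_mul_single]; simp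
    rw [hs, map_add, map_mul, map_mul, ← hE, ← hE', HahnSeries.ofPowerSeries_X_pow,
      HahnSeries.ofPowerSeries_X_pow]
    ring
  · have h1 := ((hasQ_qpow M').mul hP).add ((hasQ_qpow M).mul hP')
    refine h1.congr fun z => ?_
    simp only [Pi.add_apply, Pi.mul_apply, _root_.pow_add]
    ring

theorem HasU.mul {F G : ℍ → ℂ} {E E' : LaurentSeries ℂ} (hF : HasU F E) (hG : HasU G E') :
    HasU (fun z => F z * G z) (E * E') := by
  obtain ⟨M, P, hE, hP⟩ := hF
  obtain ⟨M', P', hE', hP'⟩ := hG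
  refine ⟨M + M', P * P', ?_, ?_⟩
  · have hs : (single ((M + M' : ℕ) : ℤ) (1 : ℂ) : LaurentSeries ℂ)
        = single (M : ℤ) 1 * single (M' : ℤ) 1 := by
      rw [HahnSeries.single_mul_single]; simp
    rw [hs, map_mul, ← hE, ← hE']
    ring
  · refine (hP.mul hP').congr fun z => ?_
    simp only [Pi.mul_apply, _root_.pow_add]
    ring

theorem HasU.neg {F : ℍ → ℂ} {E : LaurentSeries ℂ} (hF : HasU F E) :
    HasU (fun z => -F z) (-E) := by
  obtain ⟨M, P, hE, hP⟩ := hF
  refine ⟨M, -P, ?_, ?_⟩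
  · rw [map_neg, ← hE]
    ring
  · refine hP.neg.congr fun z => ?_
    simp

theorem hasU_const (c : ℂ) : HasU (fun _ => c) (HahnSeries.C c) := by
  refine ⟨0, PowerSeries.C c, ?_, ?_⟩
  · rw [HahnSeries.ofPowerSeries_C]
    have : (single ((0 : ℕ) : ℤ) (1 : ℂ) : LaurentSeries ℂ) = 1 := rfl
    rw [this, mul_one]
  · simpa using hasQ_const c

/-- The zero function only has the zero expansion. -/
theorem HasU.eq_zero {F : ℍ → ℂ} {E : LaurentSeries ℂ} (hF : HasU F E) (h : ∀ z, F z = 0) :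
    E = 0 := by
  obtain ⟨M, P, hE, hP⟩ := hF
  have hP0 : P = 0 := HasQ.series_eq_zero (hP.congr (g := 0) fun z => by simp [h z])
  rw [hP0, map_zero] at hE
  have hs : (single (M : ℤ) (1 : ℂ) : LaurentSeries ℂ) ≠ 0 := HahnSeries.single_ne_zero one_ne_zero
  exact (mul_eq_zero.mp hE).resolve_right hs

/-- A function with zero expansion vanishes. -/
theorem HasU.fun_eq_zero {F : ℍ → ℂ} {E : LaurentSeries ℂ} (hF : HasU F E) (hE0 : E = 0)
    (z : ℍ) : F z = 0 := by
  obtain ⟨M, P, hE, hP⟩ := hF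
  rw [hE0, zero_mul] at hE
  have hP0 : P = 0 := HahnSeries.ofPowerSeries_injective (by rw [← hE, map_zero])
  rw [hP0] at hP
  have h := congrFun hP.eq_zero z
  have hq : Periodic.qParam 1 (z : ℂ) ≠ 0 := Periodic.qParam_ne_zero _
  simpa [hq] using h

theorem HasU.unique_series {F : ℍ → ℂ} {E E' : LaurentSeries ℂ} (hF : HasU F E)
    (hF' : HasU F E') : E = E' := by
  have h := (hF.add hF'.neg).eq_zero fun z => by simp
  rwa [← sub_eq_add_neg, sub_eq_zero] at h

theorem HasU.unique_fun {F G : ℍ → ℂ} {E : LaurentSeries ℂ} (hF : HasU F E)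
    (hG : HasU G E) (z : ℍ) : F z = G z := by
  have h := (hF.add hG.neg).fun_eq_zero (by simp) z
  simpa [sub_eq_zero, ← sub_eq_add_neg] using h

theorem HasU.eval {σ : Type*} {f : σ → ℍ → ℂ} {e : σ → LaurentSeries ℂ}
    (h : ∀ s, HasU (f s) (e s)) (G : MvPolynomial σ ℂ) :
    HasU (fun z => MvPolynomial.eval (fun s => f s z) G)
      (MvPolynomial.eval₂ HahnSeries.C e G) := by
  induction G using MvPolynomial.induction_on with
  | C c => simpa using hasU_const c
  | add p q hp hq => simpa using hp.add hq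
  | mul_X p s hp => simpa using hp.mul (h s)

/-! ### Translations and dilations -/

theorem qParam_vadd (b : ℝ) (z : ℍ) :
    Periodic.qParam 1 ((b +ᵥ z : ℍ) : ℂ)
      = Complex.exp (2 * π * Complex.I * b) * Periodic.qParam 1 (z : ℂ) := by
  rw [coe_vadd]
  simp only [Periodic.qParam]
  rw [← Complex.exp_add]
  congr 1
  simp
  ring

/-- Precomposition with a map multiplying `q` by the constant `ξ`. -/
theorem HasU.comp_of_qParam_mul {F : ℍ → ℂ} {E : LaurentSeries ℂ} (hF : HasU F E) (ξ : ℂ)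
    (hξ : ξ ≠ 0) (w : ℍ → ℍ)
    (hw : ∀ z : ℍ, Periodic.qParam 1 ((w z : ℍ) : ℂ) = ξ * Periodic.qParam 1 (z : ℂ)) :
    HasU (fun z => F (w z)) (twist ξ hξ E) := by
  obtain ⟨M, P, hE, hP⟩ := hF
  refine ⟨M, PowerSeries.C (ξ ^ M)⁻¹ * PowerSeries.rescale ξ P, ?_, ?_⟩
  · have h1 := congrArg (twist ξ hξ) hE
    rw [map_mul, twist_single, twist_ofPowerSeries, mul_one, zpow_natCast] at h1
    have h2 : (single (M : ℤ) (ξ ^ M) : LaurentSeries ℂ)
        = HahnSeries.C (ξ ^ M) * single (M : ℤ) 1 := by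
      rw [HahnSeries.C_apply, HahnSeries.single_mul_single, zero_add, mul_one]
    have h3 : (HahnSeries.C (ξ ^ M)⁻¹ : LaurentSeries ℂ) * HahnSeries.C (ξ ^ M) = 1 := by
      rw [← map_mul, inv_mul_cancel₀ (pow_ne_zero M hξ), map_one]
    rw [map_mul, HahnSeries.ofPowerSeries_C, ← h1, h2]
    calc twist ξ hξ E * single (M : ℤ) 1
        = twist ξ hξ E * single (M : ℤ) 1
          * ((HahnSeries.C (ξ ^ M)⁻¹ : LaurentSeries ℂ) * HahnSeries.C (ξ ^ M)) := by
          rw [h3, mul_one]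
      _ = _ := by ring
  · intro z
    have h : HasSum (fun n : ℕ => PowerSeries.coeff n P * (ξ * Periodic.qParam 1 (z : ℂ)) ^ n)
        (F (w z) * (ξ * Periodic.qParam 1 (z : ℂ)) ^ M) := by
      have := hP (w z)
      simpa only [hw] using this
    have h2 := h.mul_left ((ξ ^ M)⁻¹)
    have hM : ξ ^ M ≠ 0 := pow_ne_zero M hξ
    have h3 : HasSum (fun n : ℕ => PowerSeries.coeff n
        (PowerSeries.C (ξ ^ M)⁻¹ * PowerSeries.rescale ξ P) * Periodic.qParam 1 (z : ℂ) ^ n)
        ((ξ ^ M)⁻¹ * (F (w z) * (ξ * Periodic.qParam 1 (z : ℂ)) ^ M)) := by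
      refine h2.congr_fun fun n => ?_
      rw [PowerSeries.coeff_C_mul, PowerSeries.coeff_rescale, mul_pow]
      ring
    have h4 : (ξ ^ M)⁻¹ * (F (w z) * (ξ * Periodic.qParam 1 (z : ℂ)) ^ M)
        = F (w z) * Periodic.qParam 1 (z : ℂ) ^ M := by
      rw [mul_pow]
      field_simp
    show HasSum _ (F (w z) * Periodic.qParam 1 (z : ℂ) ^ M)
    rw [← h4]
    exact h3

theorem HasU.comp_vadd {F : ℍ → ℂ} {E : LaurentSeries ℂ} (hF : HasU F E) (b : ℝ) :
    HasU (fun z => F (b +ᵥ z))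
      (twist (Complex.exp (2 * π * Complex.I * b)) (Complex.exp_ne_zero _) E) :=
  hF.comp_of_qParam_mul _ _ (fun z => b +ᵥ z) (qParam_vadd b)

theorem qParam_dil (e : ℕ) [NeZero e] (z : ℍ) :
    Periodic.qParam 1 ((JN.dil e z : ℍ) : ℂ) = Periodic.qParam 1 (z : ℂ) ^ e := by
  rw [JN.coe_dil]
  simp only [Periodic.qParam]
  rw [← Complex.exp_nat_mul]
  congr 1
  simp
  ring

theorem HasU.comp_dil {F : ℍ → ℂ} {E : LaurentSeries ℂ} (hF : HasU F E) (e : ℕ) [NeZero e] :
    HasU (fun z => F (JN.dil e z)) (qExpand ℂ e E) := by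
  obtain ⟨M, P, hE, hP⟩ := hF
  refine ⟨e * M, PowerSeries.expand e (NeZero.ne e) P, ?_, ?_⟩
  · have h1 := congrArg (qExpand ℂ e) hE
    rw [map_mul, qExpand_single, qExpand_ofPowerSeries] at h1
    rw [← h1]
    push_cast
    rfl
  · intro z
    have h : HasSum (fun n : ℕ => PowerSeries.coeff n P * (Periodic.qParam 1 (z : ℂ) ^ e) ^ n)
        (F (JN.dil e z) * (Periodic.qParam 1 (z : ℂ) ^ e) ^ M) := by
      have := hP (JN.dil e z)
      simpa only [qParam_dil] using this
    have hinj : Function.Injective (fun n : ℕ => e * n) := mul_right_injective₀ (NeZero.ne e)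
    have h2 := (hinj.hasSum_iff (f := fun k : ℕ =>
      PowerSeries.coeff k (PowerSeries.expand e (NeZero.ne e) P) * Periodic.qParam 1 (z : ℂ) ^ k)
      (a := F (JN.dil e z) * Periodic.qParam 1 (z : ℂ) ^ (e * M)) ?_).mp ?_
    · exact h2
    · intro k hk
      rw [PowerSeries.coeff_expand_of_not_dvd, zero_mul]
      rintro ⟨m, rfl⟩
      exact hk ⟨m, rfl⟩
    · rw [pow_mul]
      refine h.congr_fun fun n => ?_
      simp only [Function.comp_apply, PowerSeries.coeff_expand_mul, pow_mul]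

/-! ### The `j`-function and its translates -/

theorem hasU_jFun : HasU JN.jFun (coeffEmb ℂ jq) := by
  refine ⟨1, JqBridge.toC jNum, ?_, ?_⟩
  · have h1 : jNumQ.map (algebraMap ℚ ℂ) = JqBridge.toC jNum := by
      ext n
      simp [jNumQ, JqBridge.toC]
    rw [jq, coeffEmb, map_mul, coeffMap_single, coeffMap_ofPowerSeries, map_one, h1, mul_comm,
      ← mul_assoc, HahnSeries.single_mul_single]
    simp
  · simpa using JqBridge.hasQ_jFun_mul_q

theorem jN_one_eq (z : ℍ) : JN.jN 1 z = JN.jFun z := by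
  have : JN.dil 1 z = z := UpperHalfPlane.ext (by rw [JN.coe_dil]; simp)
  rw [JN.jN, this]

theorem exists_hasU_jN (N : ℕ) [NeZero N] (d : Dv N) (γ : SL(2, ℤ)) :
    ∃ E : LaurentSeries ℂ, HasU (fun z => JN.jN d.1 (γ • JN.dil N z)) E := by
  have : NeZero d.1 := ⟨d.ne_zero⟩
  obtain ⟨A, D, B, -, hA, hD, hAD, -, hz⟩ := JN.exists_aff_of_smul d.1 γ
  have hDN : D ∣ N := (Dvd.intro_left A hAD).trans d.2
  obtain ⟨E', hE'⟩ := hDN
  have hE'pos : 0 < E' := by
    rcases Nat.eq_zero_or_pos E' with h0 | h0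
    · rw [h0, mul_zero] at hE'
      exact absurd hE' (NeZero.ne N)
    · exact h0
  have : NeZero (A * E') := ⟨(Nat.mul_pos hA hE'pos).ne'⟩
  refine ⟨_, ((hasU_jFun.comp_vadd ((B : ℝ) / D)).comp_dil (A * E')).congr fun z => ?_⟩
  rw [hz]
  congr 1
  apply UpperHalfPlane.ext
  have hDR : (0 : ℝ) < (D : ℝ) := by exact_mod_cast hD
  have hAR : (0 : ℝ) < (A : ℝ) := by exact_mod_cast hA
  have hDC : (D : ℂ) ≠ 0 := by exact_mod_cast hD.ne'
  rw [coe_vadd, JN.coe_dil, JN.coe_aff (div_pos hAR hDR), JN.coe_dil, hE']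
  push_cast
  field_simp
  ring



/-! ### The expansion embeddings -/

theorem evalFun_apply (N : ℕ) (G : MvPolynomial (Dv N) ℂ) (z : ℍ) :
    evalFun N G z = MvPolynomial.eval (fun d : Dv N => JN.jN d.1 z) G := by
  unfold evalFun
  induction G using MvPolynomial.induction_on with
  | C c => simp
  | add p q hp hq => simp [hp, hq]
  | mul_X p s hp => simp [hp]

theorem gamma0_le_of_dvd {N d : ℕ} (hd : d ∣ N) :
    CongruenceSubgroup.Gamma0 N ≤ CongruenceSubgroup.Gamma0 d := by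
  intro g hg
  rw [CongruenceSubgroup.Gamma0_mem] at hg ⊢
  rw [ZMod.intCast_zmod_eq_zero_iff_dvd] at hg ⊢
  exact (Int.natCast_dvd_natCast.mpr hd).trans hg

/-- Polynomials in the `j(d z)`, `d ∣ N`, are invariant under `Γ₀(N)`. -/
theorem evalFun_smul_of_mem (N : ℕ) [NeZero N] (G : MvPolynomial (Dv N) ℂ) {h : SL(2, ℤ)}
    (hh : h ∈ CongruenceSubgroup.Gamma0 N) (w : ℍ) : evalFun N G (h • w) = evalFun N G w := by
  rw [evalFun_apply, evalFun_apply]
  have : (fun d : Dv N => JN.jN d.1 (h • w)) = fun d : Dv N => JN.jN d.1 w := by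
    funext d
    have : NeZero d.1 := ⟨d.ne_zero⟩
    exact JN.jN_smul_of_mem_Gamma0 d.1 (gamma0_le_of_dvd d.2 hh) w
  rw [this]

theorem exists_dil_eq (N : ℕ) [NeZero N] (w : ℍ) : ∃ z : ℍ, JN.dil N z = w := by
  have hN : (0 : ℝ) < (N : ℝ) := by exact_mod_cast Nat.pos_of_ne_zero (NeZero.ne N)
  have hNC : (N : ℂ) ≠ 0 := by exact_mod_cast NeZero.ne N
  refine ⟨JN.aff (1 / N) 0 w, ?_⟩
  apply UpperHalfPlane.ext
  rw [JN.coe_dil, JN.coe_aff (by positivity)]
  push_cast
  field_simp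
  ring

section Datum

variable {L : Type*} [Field L] [Algebra ℚ L] (ι : L →+* ℂ) (N : ℕ) [NeZero N]

/-- The expansion of `z ↦ j (d (γ z))` in `u = exp (2 π i z / N)`. -/
def fexp (γ : SL(2, ℤ)) (d : Dv N) : LaurentSeries ℂ :=
  Classical.choose (exists_hasU_jN N d γ)

theorem hasU_fexp (γ : SL(2, ℤ)) (d : Dv N) :
    HasU (fun z => JN.jN d.1 (γ • JN.dil N z)) (fexp N γ d) :=
  Classical.choose_spec (exists_hasU_jN N d γ)

/-- Evaluation of polynomials at the expansions of the `j (d (γ z))`. -/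
def phi (γ : SL(2, ℤ)) : MvPolynomial (Dv N) L →+* LaurentSeries ℂ :=
  MvPolynomial.eval₂Hom (HahnSeries.C.comp ι) (fexp N γ)

omit [Algebra ℚ L] in
theorem hasU_phi (γ : SL(2, ℤ)) (P : MvPolynomial (Dv N) L) :
    HasU (fun z => evalFun N (MvPolynomial.map ι P) (γ • JN.dil N z)) (phi ι N γ P) := by
  have h := HasU.eval (fun d => hasU_fexp N γ d) (MvPolynomial.map ι P)
  rw [MvPolynomial.eval₂_map] at h
  exact h.congr fun z => (evalFun_apply N _ _).symm

theorem phi_eq_zero_iff (γ : SL(2, ℤ)) (P : MvPolynomial (Dv N) L) :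
    evalL L N P = 0 ↔ phi ι N γ P = 0 := by
  rw [Bridge.bridgeL ι N P]
  constructor
  · intro h
    exact (hasU_phi ι N γ P).eq_zero fun z => by rw [h]; rfl
  · intro h
    funext w
    obtain ⟨z, hz⟩ := exists_dil_eq N (γ⁻¹ • w)
    have := (hasU_phi ι N γ P).fun_eq_zero h z
    rw [hz, smul_inv_smul] at this
    exact this

/-- The expansion embedding of the function field attached to `γ`:
`f ↦ (f ∘ γ)(u)`, `u = exp (2 π i z / N)`. -/
def tauG (γ : SL(2, ℤ)) : ↥(FF L N) →+* LaurentSeries ℂ :=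
  Classical.choose (Ext.exists_hom L N (phi ι N γ) (phi_eq_zero_iff ι N γ))

theorem tauG_evalL (γ : SL(2, ℤ)) (P : MvPolynomial (Dv N) L) :
    tauG ι N γ (evalL L N P) = phi ι N γ P :=
  Classical.choose_spec (Ext.exists_hom L N (phi ι N γ) (phi_eq_zero_iff ι N γ)) P

theorem tauG_gen (γ : SL(2, ℤ)) (d : Dv N) : tauG ι N γ (gen L N d) = fexp N γ d := by
  rw [← Ext.evalL_X, tauG_evalL]
  simp [phi]

theorem tauG_algebraMap (γ : SL(2, ℤ)) (c : L) :
    tauG ι N γ (algebraMap L ↥(FF L N) c) = HahnSeries.C (ι c) := by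
  rw [← Ext.evalL_C, tauG_evalL]
  simp [phi]

theorem fexp_one (γ : SL(2, ℤ)) :
    fexp N γ ⟨1, one_dvd N⟩ = qExpand ℂ N (coeffEmb ℂ jq) := by
  refine (hasU_fexp N γ ⟨1, one_dvd N⟩).unique_series
    ((hasU_jFun.comp_dil N).congr fun z => ?_)
  rw [jN_one_eq, JN.jFun_smul]

theorem order_qExpand_jq : (qExpand ℂ N (coeffEmb ℂ jq)).order = -(N : ℤ) := by
  have hc : (qExpand ℂ N (coeffEmb ℂ jq)).coeff (-(N : ℤ)) = 1 := by
    have := qExpand_coeff_mul (R := ℂ) N (coeffEmb ℂ jq) (-1)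
    rw [mul_neg_one] at this
    rw [this, coeffEmb_coeff, coeff_jq_neg_one, map_one]
  have hne : qExpand ℂ N (coeffEmb ℂ jq) ≠ 0 := fun h => by
    rw [h] at hc
    simp at hc
  apply le_antisymm
  · exact HahnSeries.order_le_of_coeff_ne_zero (by rw [hc]; exact one_ne_zero)
  · rw [HahnSeries.le_order_iff_forall hne]
    intro k hk
    by_cases hdvd : (N : ℤ) ∣ k
    · obtain ⟨m, rfl⟩ := hdvd
      have hN : (0 : ℤ) < N := by exact_mod_cast Nat.pos_of_ne_zero (NeZero.ne N)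
      have hm : m < -1 := by nlinarith
      rw [qExpand_coeff_mul, coeffEmb_coeff, coeff_jq_of_lt hm, map_zero]
    · exact qExpand_coeff_of_not_dvd N _ hdvd

theorem order_inv_qExpand_jq : ((qExpand ℂ N (coeffEmb ℂ jq))⁻¹).order = (N : ℤ) := by
  have hne : qExpand ℂ N (coeffEmb ℂ jq) ≠ 0 := fun h => by
    have := order_qExpand_jq N
    rw [h, HahnSeries.order_zero] at this
    have hN : (0 : ℤ) < N := by exact_mod_cast Nat.pos_of_ne_zero (NeZero.ne N)
    omega
  have h1 := HahnSeries.order_mul hne (inv_ne_zero hne)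
  rw [mul_inv_cancel₀ hne, HahnSeries.order_one, order_qExpand_jq] at h1
  omega

theorem tauG_jElt_inv (γ : SL(2, ℤ)) :
    tauG ι N γ (jElt L N)⁻¹ = (qExpand ℂ N (coeffEmb ℂ jq))⁻¹ := by
  rw [map_inv₀, jElt, tauG_gen, fexp_one]


/-- Distinct cosets give distinct embeddings. -/
theorem tauG_out_injective :
    Function.Injective fun i : SL(2, ℤ) ⧸ CongruenceSubgroup.Gamma0 N =>
      tauG ι N (Quotient.out i)⁻¹ := by
  intro i j hij
  have hij' : tauG ι N (Quotient.out i)⁻¹ = tauG ι N (Quotient.out j)⁻¹ := hij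
  have h1 : fexp N (Quotient.out i)⁻¹ ⟨N, dvd_rfl⟩ = fexp N (Quotient.out j)⁻¹ ⟨N, dvd_rfl⟩ := by
    rw [← tauG_gen ι N, ← tauG_gen ι N, hij']
  have h2 : ∀ z : ℍ, JN.jN N ((Quotient.out i)⁻¹ • JN.dil N z)
      = JN.jN N ((Quotient.out j)⁻¹ • JN.dil N z) := by
    have h3 := hasU_fexp N (Quotient.out j)⁻¹ ⟨N, dvd_rfl⟩
    rw [← h1] at h3
    exact (hasU_fexp N (Quotient.out i)⁻¹ ⟨N, dvd_rfl⟩).unique_fun h3
  have hmem : (Quotient.out i)⁻¹ * Quotient.out j ∈ CongruenceSubgroup.Gamma0 N := by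
    apply JN.mem_Gamma0_of_jN_smul
    intro w
    obtain ⟨z, hz⟩ := exists_dil_eq N (Quotient.out j • w)
    have := h2 z
    rw [hz, inv_smul_smul] at this
    rw [mul_smul]
    exact this
  have := (QuotientGroup.eq (s := CongruenceSubgroup.Gamma0 N)).mpr hmem
  simpa using this

/-- The rotation `u ↦ ζ u` of the expansions corresponds to `T⁻¹` on cosets. -/
theorem tauG_rot (i : SL(2, ℤ) ⧸ CongruenceSubgroup.Gamma0 N) :
    tauG ι N (Quotient.out (cosetPerm N ModularGroup.T⁻¹ i))⁻¹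
      = (twist (Complex.exp (2 * π * Complex.I * ((1 / N : ℝ) : ℂ))) (Complex.exp_ne_zero _)).comp
          (tauG ι N (Quotient.out i)⁻¹) := by
  apply Ext.hom_ext L N
  intro P
  rw [RingHom.comp_apply, tauG_evalL, tauG_evalL]
  refine (hasU_phi ι N _ P).unique_series
    (((hasU_phi ι N _ P).comp_vadd (1 / N : ℝ)).congr fun z => ?_)
  -- the two functions agree
  set g : SL(2, ℤ) := Quotient.out i with hg
  set g' : SL(2, ℤ) := Quotient.out (cosetPerm N ModularGroup.T⁻¹ i) with hg'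
  have hmem : g'⁻¹ * (ModularGroup.T⁻¹ * g) ∈ CongruenceSubgroup.Gamma0 N := by
    rw [← QuotientGroup.eq]
    have h1 : ((g' : SL(2, ℤ)) : SL(2, ℤ) ⧸ CongruenceSubgroup.Gamma0 N)
        = cosetPerm N ModularGroup.T⁻¹ i := QuotientGroup.out_eq' _
    have h2 : ((g : SL(2, ℤ)) : SL(2, ℤ) ⧸ CongruenceSubgroup.Gamma0 N) = i :=
      QuotientGroup.out_eq' _
    rw [h1, cosetPerm, MulAction.toPerm_apply, ← h2]
    rfl
  have hdil : JN.dil N ((1 / N : ℝ) +ᵥ z) = ModularGroup.T • JN.dil N z := by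
    rw [modular_T_smul]
    apply UpperHalfPlane.ext
    have hNC : (N : ℂ) ≠ 0 := by exact_mod_cast NeZero.ne N
    rw [JN.coe_dil, coe_vadd, coe_vadd, JN.coe_dil]
    push_cast
    field_simp
  have hinv := evalFun_smul_of_mem N (MvPolynomial.map ι P) hmem
    (g⁻¹ • ModularGroup.T • JN.dil N z)
  have e1 : (g'⁻¹ * (ModularGroup.T⁻¹ * g)) • g⁻¹ • ModularGroup.T • JN.dil N z
      = g'⁻¹ • JN.dil N z := by
    rw [mul_smul, mul_smul, smul_inv_smul, inv_smul_smul]
  rw [e1] at hinv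
  rw [hdil, hinv]

end Datum

/-- **The local uniformisation datum at the cusps**: the `u = q^{1/N}`-expansions of the
translates `f ∘ γ⁻¹`, `γ ∈ SL(2, ℤ) / Γ₀(N)`, all send `1 / j` to the same series of order `N`,
and the substitution `u ↦ exp (2 π i / N) u` permutes them like `T⁻¹` permutes the cosets. -/
theorem datum_cusp {L : Type*} [Field L] [Algebra ℚ L] (ι : L →+* ℂ) (N : ℕ) [NeZero N] :
    Nonempty (LocalDatum ι (jElt L N)⁻¹ (cosetPerm N ModularGroup.T⁻¹) N) := by
  refine ⟨{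
    τ := fun i => tauG ι N (Quotient.out i)⁻¹
    τ_algebraMap := fun i c => tauG_algebraMap ι N _ c
    τ_injective := tauG_out_injective ι N
    τ_y := fun i j => by rw [tauG_jElt_inv, tauG_jElt_inv]
    m_pos := Nat.pos_of_ne_zero (NeZero.ne N)
    order_y := fun i => by rw [tauG_jElt_inv, order_inv_qExpand_jq]
    ζ := Complex.exp (2 * π * Complex.I * ((1 / N : ℝ) : ℂ))
    ζ_prim := ?_
    rot := fun i f k => by rw [tauG_rot]; rfl }⟩
  have h := Complex.isPrimitiveRoot_exp N (NeZero.ne N)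
  have e : 2 * (π : ℂ) * Complex.I * ((1 / N : ℝ) : ℂ) = 2 * π * Complex.I / N := by
    push_cast
    ring
  rw [e]
  exact h

end Fermat.Agent.S24.Cusp

end
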