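import Mathlib

set_option autoImplicit false

noncomputable section

namespace Fermat.Agent.S24.DegreeAlg

open Polynomial IntermediateField Module

/-- If every element of a field extension `F / E` (characteristic zero) is a root of a nonzero
polynomial of degree at most `n`, then `F / E` is finite of degree at most `n`. -/
theorem finrank_le_of_forall_exists_poly {E F : Type*} [Field E] [Field F] [Algebra E F]
    [CharZero E] (n : ℕ)
    (h : ∀ x : F, ∃ p : E[X], p ≠ 0 ∧ p.natDegree ≤ n ∧ Polynomial.aeval x p = 0) :
    FiniteDimensional E F ∧ Module.finrank E F ≤ n := by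
  have halg : Algebra.IsAlgebraic E F := ⟨fun x => by
    obtain ⟨p, hp0, -, hp⟩ := h x
    exact ⟨p, hp0, hp⟩⟩
  have hint : ∀ x : F, IsIntegral E x := fun x => (halg.isAlgebraic x).isIntegral
  have hdeg : ∀ x : F, (minpoly E x).natDegree ≤ n := by
    intro x
    obtain ⟨p, hp0, hpn, hp⟩ := h x
    exact (Polynomial.natDegree_le_of_dvd (minpoly.dvd E x hp) hp0).trans hpn
  -- choose an element of maximal degree
  obtain ⟨α, hα⟩ : ∃ α : F, ∀ β : F, (minpoly E β).natDegree ≤ (minpoly E α).natDegree := by
    by_contra hcon
    push Not at hcon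
    have : ∀ k : ℕ, ∃ x : F, k ≤ (minpoly E x).natDegree := by
      intro k
      induction k with
      | zero => exact ⟨0, Nat.zero_le _⟩
      | succ k ih =>
        obtain ⟨x, hx⟩ := ih
        obtain ⟨y, hy⟩ := hcon x
        exact ⟨y, by omega⟩
    obtain ⟨x, hx⟩ := this (n + 1)
    have := hdeg x
    omega
  have htop : E⟮α⟯ = ⊤ := by
    rw [eq_top_iff]
    intro β _
    -- the field generated by α and β is simple
    let K' : IntermediateField E F := E⟮α⟯ ⊔ E⟮β⟯
    have hfin1 : FiniteDimensional E E⟮α⟯ := adjoin.finiteDimensional (hint α)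
    have hfin2 : FiniteDimensional E E⟮β⟯ := adjoin.finiteDimensional (hint β)
    have hfin : FiniteDimensional E K' := IntermediateField.finiteDimensional_sup _ _
    obtain ⟨γ, hγ⟩ := Field.exists_primitive_element E K'
    have hγint : IsIntegral E γ := (Algebra.IsIntegral.isIntegral γ)
    have h1 : Module.finrank E K' = (minpoly E γ).natDegree := by
      rw [← IntermediateField.adjoin.finrank hγint, hγ, IntermediateField.finrank_top']
    have h2 : (minpoly E γ).natDegree = (minpoly E (γ : F)).natDegree := by
      rw [show (γ : F) = algebraMap K' F γ from rfl,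
        minpoly.algebraMap_eq (algebraMap K' F).injective]
    have h3 : Module.finrank E E⟮α⟯ = (minpoly E α).natDegree :=
      IntermediateField.adjoin.finrank (hint α)
    have hle : E⟮α⟯ ≤ K' := le_sup_left
    have heq : E⟮α⟯ = K' := by
      refine IntermediateField.eq_of_le_of_finrank_le hle ?_
      rw [h1, h2, h3]
      exact hα _
    rw [heq]
    exact (le_sup_right : E⟮β⟯ ≤ K') (mem_adjoin_simple_self E β)
  have hfinα : FiniteDimensional E E⟮α⟯ := adjoin.finiteDimensional (hint α)
  have hfinF : FiniteDimensional E F := by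
    rw [htop] at hfinα
    exact (IntermediateField.topEquiv (F := E) (E := F)).toLinearEquiv.finiteDimensional
  refine ⟨hfinF, ?_⟩
  have h3 : Module.finrank E E⟮α⟯ = (minpoly E α).natDegree :=
    IntermediateField.adjoin.finrank (hint α)
  rw [htop, IntermediateField.finrank_top'] at h3
  rw [h3]
  exact hdeg α

end Fermat.Agent.S24.DegreeAlg

end
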