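import Mathlib
import Fermat.Prelude.Def_ModularCurve_LaurentCoeff

set_option autoImplicit false

noncomputable section

namespace Fermat.Agent.S24.DegreeDescent

open ModularCurve HahnSeries Polynomial

variable {L M : Type*} [Field L] [Field M]

/-- Coefficientwise application of an additive map to a Laurent series. -/
def lamMap (lam : M →+ L) : LaurentSeries M →+ LaurentSeries L where
  toFun x := x.map lam
  map_zero' := by
    ext k
    simp
  map_add' x y := by
    ext k
    simp

@[simp]
theorem lamMap_coeff (lam : M →+ L) (x : LaurentSeries M) (k : ℤ) :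
    (lamMap lam x).coeff k = lam (x.coeff k) := rfl

theorem support_lamMap_subset (lam : M →+ L) (x : LaurentSeries M) :
    (lamMap lam x).support ⊆ x.support := by
  intro k hk
  rw [HahnSeries.mem_support] at hk ⊢
  intro h
  apply hk
  rw [lamMap_coeff, h, map_zero]

theorem support_coeffMap_subset (ι : L →+* M) (v : LaurentSeries L) :
    (coeffMap ι v).support ⊆ v.support := by
  intro k hk
  rw [HahnSeries.mem_support] at hk ⊢
  intro h
  apply hk
  rw [coeffMap_coeff, h, map_zero]

/-- `lamMap` is linear over `L((q))` (acting through `coeffMap ι`) when `lam` is `L`-linear. -/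
theorem lamMap_mul_coeffMap (ι : L →+* M) (lam : M →+ L)
    (hlam : ∀ (a : L) (c : M), lam (c * ι a) = lam c * a)
    (x : LaurentSeries M) (v : LaurentSeries L) :
    lamMap lam (x * coeffMap ι v) = lamMap lam x * v := by
  ext e
  rw [lamMap_coeff,
    HahnSeries.coeff_mul_right' (x := x) v.isPWO_support (support_coeffMap_subset ι v),
    HahnSeries.coeff_mul_left' (y := v) x.isPWO_support (support_lamMap_subset lam x), map_sum]
  refine Finset.sum_congr rfl fun ij _ => ?_
  rw [coeffMap_coeff, hlam, lamMap_coeff]

theorem lamMap_algebraMap_mul_coeffMap (ι : L →+* M) (lam : M →+ L)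
    (hlam : ∀ (a : L) (c : M), lam (c * ι a) = lam c * a)
    (c : M) (v : LaurentSeries L) :
    lamMap lam (algebraMap M (LaurentSeries M) c * coeffMap ι v) =
      algebraMap L (LaurentSeries L) (lam c) * v := by
  rw [algebraMap_laurentSeries_eq_single, algebraMap_laurentSeries_eq_single]
  ext e
  rw [lamMap_coeff, HahnSeries.coeff_single_mul, HahnSeries.coeff_single_mul, coeffMap_coeff,
    hlam]

/-- Apply `lam` to the coefficients of a polynomial. -/
def lamPoly (lam : M →+ L) (p : M[X]) : L[X] :=
  ∑ i ∈ Finset.range (p.natDegree + 1), Polynomial.monomial i (lam (p.coeff i))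

theorem lamPoly_coeff (lam : M →+ L) (p : M[X]) (k : ℕ) :
    (lamPoly lam p).coeff k = lam (p.coeff k) := by
  rw [lamPoly, Polynomial.finsetSum_coeff]
  simp only [Polynomial.coeff_monomial]
  rw [Finset.sum_ite_eq']
  split_ifs with hk
  · rfl
  · rw [Finset.mem_range, not_lt] at hk
    rw [Polynomial.coeff_eq_zero_of_natDegree_lt (by omega), map_zero]

theorem lamMap_aeval (ι : L →+* M) (lam : M →+ L)
    (hlam : ∀ (a : L) (c : M), lam (c * ι a) = lam c * a)
    (p : M[X]) (J : LaurentSeries L) :
    lamMap lam (Polynomial.aeval (coeffMap ι J) p) = Polynomial.aeval J (lamPoly lam p) := by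
  rw [Polynomial.aeval_eq_sum_range, map_sum, lamPoly, map_sum]
  refine Finset.sum_congr rfl fun i _ => ?_
  rw [← map_pow, Polynomial.aeval_monomial, Algebra.smul_def]
  exact lamMap_algebraMap_mul_coeffMap ι lam hlam _ _

/-- **Descent of linear relations** (linear disjointness of `M` and `L((q))` over `L`): a relation
`∑ m, p_m(J) v_m = 0` with coefficient polynomials over `M` (after extending the coefficient field
of the Laurent series `J`, `v m` along `ι : L →+* M`) yields such a relation with coefficient
polynomials over `L`, keeping a prescribed nonzero coefficient polynomial nonzero. -/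
theorem exists_descent (ι : L →+* M) (J : LaurentSeries L) (v : ℕ → LaurentSeries L)
    (s : Finset ℕ) (p : ℕ → M[X]) (m₀ : ℕ) (hp : p m₀ ≠ 0)
    (hrel : ∑ m ∈ s, Polynomial.aeval (coeffMap ι J) (p m) * coeffMap ι (v m) = 0) :
    ∃ p' : ℕ → L[X], p' m₀ ≠ 0 ∧ (∀ m, (p' m).natDegree ≤ (p m).natDegree) ∧
      ∑ m ∈ s, Polynomial.aeval J (p' m) * v m = 0 := by
  obtain ⟨k₀, hk₀⟩ : ∃ k, (p m₀).coeff k ≠ 0 := by
    by_contra hcon
    push Not at hcon
    exact hp (Polynomial.ext fun k => by simpa using hcon k)
  let _ : Algebra L M := ι.toAlgebra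
  obtain ⟨f, hf⟩ : ∃ f : Module.Dual L M, f ((p m₀).coeff k₀) ≠ 0 := by
    by_contra hcon
    push Not at hcon
    exact hk₀ ((Module.forall_dual_apply_eq_zero_iff L _).mp hcon)
  let lam : M →+ L := f.toAddMonoidHom
  have hlam : ∀ (a : L) (c : M), lam (c * ι a) = lam c * a := by
    intro a c
    have h1 : c * ι a = a • c := by
      rw [Algebra.smul_def, mul_comm]
      rfl
    show f (c * ι a) = f c * a
    rw [h1, map_smul, smul_eq_mul, mul_comm]
  refine ⟨fun m => lamPoly lam (p m), ?_, ?_, ?_⟩
  · intro h0
    apply hf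
    have h1 := congrArg (fun q => Polynomial.coeff q k₀) h0
    simp only [lamPoly_coeff, Polynomial.coeff_zero] at h1
    exact h1
  · intro m
    rw [Polynomial.natDegree_le_iff_coeff_eq_zero]
    intro k hk
    rw [lamPoly_coeff, Polynomial.coeff_eq_zero_of_natDegree_lt hk, map_zero]
  · have h2 := congrArg (lamMap lam) hrel
    rw [map_sum, map_zero] at h2
    rw [← h2]
    refine Finset.sum_congr rfl fun m _ => ?_
    rw [lamMap_mul_coeffMap ι lam hlam, lamMap_aeval ι lam hlam]

end Fermat.Agent.S24.DegreeDescent

end
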