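import Mathlib
import Fermat.Agent.S23.JN
import Fermat.Agent.S23.NormPoly
import Fermat.Agent.S23.LevelOne
import Fermat.Agent.S23.UV
import Fermat.Agent.S23.Dist

set_option autoImplicit false

open UpperHalfPlane

open scoped ModularForm Topology Filter Manifold MatrixGroups

noncomputable section

namespace Fermat.Agent.S24.DegreeForms

open CongruenceSubgroup Matrix.SpecialLinearGroup
open Fermat.Agent.S23

/-- `f` is (the underlying function of) a modular form of weight `w` on `Γ₀(N)`. -/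
def IsMF (N : ℕ) (w : ℤ) (f : ℍ → ℂ) : Prop :=
  ∃ P : ModularForm (Gamma0 N) w, (⇑P : ℍ → ℂ) = f

variable {N : ℕ}

theorem IsMF.cast {w w' : ℤ} {f : ℍ → ℂ} (h : w = w') (hf : IsMF N w f) : IsMF N w' f := by
  subst h
  exact hf

theorem IsMF.add {w : ℤ} {f g : ℍ → ℂ} (hf : IsMF N w f) (hg : IsMF N w g) :
    IsMF N w (f + g) := by
  obtain ⟨P, rfl⟩ := hf
  obtain ⟨Q, rfl⟩ := hg
  exact ⟨P + Q, rfl⟩

theorem isMF_zero (w : ℤ) : IsMF N w 0 := ⟨0, rfl⟩

theorem IsMF.smul {w : ℤ} {f : ℍ → ℂ} (c : ℂ) (hf : IsMF N w f) : IsMF N w (c • f) := by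
  obtain ⟨P, rfl⟩ := hf
  exact ⟨c • P, rfl⟩

theorem IsMF.mul {w w' : ℤ} {f g : ℍ → ℂ} (hf : IsMF N w f) (hg : IsMF N w' g) :
    IsMF N (w + w') (f * g) := by
  obtain ⟨P, rfl⟩ := hf
  obtain ⟨Q, rfl⟩ := hg
  exact ⟨P.mul Q, rfl⟩

theorem isMF_one : IsMF N 0 1 := ⟨1, rfl⟩

theorem IsMF.pow {w : ℤ} {f : ℍ → ℂ} (hf : IsMF N w f) (m : ℕ) : IsMF N (w * m) (f ^ m) := by
  induction m with
  | zero => simpa using isMF_one
  | succ m ih =>
    rw [pow_succ]
    exact (ih.mul hf).cast (by push_cast; ring)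

theorem IsMF.sum {ι : Type*} (s : Finset ι) {w : ℤ} {f : ι → ℍ → ℂ}
    (h : ∀ i ∈ s, IsMF N w (f i)) : IsMF N w (∑ i ∈ s, f i) := by
  classical
  induction s using Finset.induction_on with
  | empty => simpa using isMF_zero w
  | insert a s ha ih =>
    rw [Finset.sum_insert ha]
    exact (h a (Finset.mem_insert_self a s)).add
      (ih fun i hi => h i (Finset.mem_insert_of_mem hi))

theorem IsMF.prod {ι : Type*} (s : Finset ι) {w : ℤ} {f : ι → ℍ → ℂ}
    (h : ∀ i ∈ s, IsMF N w (f i)) : IsMF N (w * s.card) (∏ i ∈ s, f i) := by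
  classical
  induction s using Finset.induction_on with
  | empty => simpa using isMF_one
  | insert a s ha ih =>
    rw [Finset.prod_insert ha, Finset.card_insert_of_notMem ha]
    exact ((h a (Finset.mem_insert_self a s)).mul
      (ih fun i hi => h i (Finset.mem_insert_of_mem hi))).cast (by push_cast; ring)

theorem gamma0_le_of_dvd {d N : ℕ} (h : d ∣ N) : Gamma0 N ≤ Gamma0 d := by
  intro γ hγ
  rw [Gamma0_mem] at hγ ⊢
  rw [ZMod.intCast_zmod_eq_zero_iff_dvd] at hγ ⊢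
  exact (Int.natCast_dvd_natCast.mpr h).trans hγ

theorem map_gamma0_le_of_dvd {d N : ℕ} (h : d ∣ N) :
    (Subgroup.map (mapGL ℝ) (Gamma0 N)) ≤ (Subgroup.map (mapGL ℝ) (Gamma0 d)) :=
  Subgroup.map_mono (gamma0_le_of_dvd h)

theorem isMF_uForm {d : ℕ} [NeZero d] (h : d ∣ N) : IsMF N 12 (⇑(UV.uForm d)) :=
  ⟨Dilate.restrict (map_gamma0_le_of_dvd h) (UV.uForm d), rfl⟩

theorem isMF_vForm {d : ℕ} [NeZero d] (h : d ∣ N) : IsMF N 12 (⇑(UV.vForm d)) :=
  ⟨Dilate.restrict (map_gamma0_le_of_dvd h) (UV.vForm d), rfl⟩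


variable {ι : Type*} [Fintype ι]

/-- Homogenisation: a polynomial expression of multidegree at most `M` in the functions
`j(d_i z)`, multiplied by `(∏ i, Δ(d_i z)) ^ M`, is a modular form of weight `12 M #ι` on
`Γ₀(N)`. -/
theorem isMF_homog (d : ι → ℕ) [∀ i, NeZero (d i)] (hd : ∀ i, d i ∣ N)
    (A : MvPolynomial ι ℂ) (M : ℕ) (hM : ∀ e ∈ A.support, ∀ i, e i ≤ M) :
    IsMF N (12 * M * Fintype.card ι)
      (fun z => (∏ i, UV.vForm (d i) z) ^ M * MvPolynomial.eval (fun i => JN.jN (d i) z) A) := by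
  have key : (fun z => (∏ i, UV.vForm (d i) z) ^ M *
      MvPolynomial.eval (fun i => JN.jN (d i) z) A) =
      ∑ e ∈ A.support, A.coeff e •
        ∏ i, ((⇑(UV.uForm (d i)) : ℍ → ℂ) ^ (e i) * (⇑(UV.vForm (d i)) : ℍ → ℂ) ^ (M - e i)) := by
    funext z
    rw [MvPolynomial.eval_eq', Finset.mul_sum, Finset.sum_apply]
    refine Finset.sum_congr rfl fun e he => ?_
    simp only [Pi.smul_apply, Finset.prod_apply, Pi.mul_apply, Pi.pow_apply, smul_eq_mul]
    rw [← Finset.prod_pow, mul_left_comm, ← Finset.prod_mul_distrib]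
    congr 1
    refine Finset.prod_congr rfl fun i _ => ?_
    rw [Dist.jN_eq_uForm_div_vForm, div_pow]
    have hv := UV.vForm_ne_zero (d i) z
    have hei := hM e he i
    have h1 : UV.vForm (d i) z ^ M = UV.vForm (d i) z ^ (M - e i) * UV.vForm (d i) z ^ (e i) := by
      rw [← pow_add, Nat.sub_add_cancel hei]
    rw [h1]
    field_simp
  rw [key]
  refine IsMF.sum _ fun e he => IsMF.smul _ ?_
  have h2 := IsMF.prod (N := N) (Finset.univ : Finset ι) (w := 12 * M)
    (f := fun i => (⇑(UV.uForm (d i)) : ℍ → ℂ) ^ (e i) * (⇑(UV.vForm (d i)) : ℍ → ℂ) ^ (M - e i))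
    (fun i _ => ?_)
  · exact h2.cast (by rw [Finset.card_univ])
  · have hei := hM e he i
    exact (((isMF_uForm (hd i)).pow (e i)).mul ((isMF_vForm (hd i)).pow (M - e i))).cast
      (by push_cast [Nat.cast_sub hei]; ring)

/-- **Norm equation over `ℂ[j]`** for a quotient `A / B` of polynomial expressions in the functions
`j(d_i z)`, `d_i ∣ N`: with `n = [SL₂(ℤ) : Γ₀(N)]` there are polynomials `p 0, …, p n` with
`∑ m ≤ n, (-1)^m p_m(j) B^m A^(n-m) = 0`, and `p 0 ≠ 0` unless `B` vanishes identically. -/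
theorem exists_rel_fun [NeZero N] (d : ι → ℕ) [∀ i, NeZero (d i)] (hd : ∀ i, d i ∣ N)
    (A B : MvPolynomial ι ℂ) :
    ∃ p : ℕ → Polynomial ℂ,
      ((∃ z : ℍ, MvPolynomial.eval (fun i => JN.jN (d i) z) B ≠ 0) → p 0 ≠ 0) ∧
      ∀ z : ℍ, ∑ m ∈ Finset.range ((Gamma0 N).index + 1),
        (-1 : ℂ) ^ m * (p m).eval (JN.jFun z) *
          (MvPolynomial.eval (fun i => JN.jN (d i) z) B) ^ m *
          (MvPolynomial.eval (fun i => JN.jN (d i) z) A) ^ ((Gamma0 N).index - m) = 0 := by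
  classical
  set M : ℕ := ∑ i, (A.degreeOf i + B.degreeOf i) with hMdef
  have hMA : ∀ e ∈ A.support, ∀ i, e i ≤ M := by
    intro e he i
    have h1 : e i ≤ A.degreeOf i := MvPolynomial.monomial_le_degreeOf i he
    have h2 : A.degreeOf i + B.degreeOf i ≤ M :=
      Finset.single_le_sum (f := fun i => A.degreeOf i + B.degreeOf i)
        (fun _ _ => Nat.zero_le _) (Finset.mem_univ i)
    omega
  have hMB : ∀ e ∈ B.support, ∀ i, e i ≤ M := by
    intro e he i
    have h1 : e i ≤ B.degreeOf i := MvPolynomial.monomial_le_degreeOf i he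
    have h2 : A.degreeOf i + B.degreeOf i ≤ M :=
      Finset.single_le_sum (f := fun i => A.degreeOf i + B.degreeOf i)
        (fun _ _ => Nat.zero_le _) (Finset.mem_univ i)
    omega
  obtain ⟨P, hP⟩ := isMF_homog d hd A M hMA
  obtain ⟨Q, hQ⟩ := isMF_homog d hd B M hMB
  obtain ⟨Mm, hM0, hMrel⟩ := NormPoly.exists_normPoly P Q
  set K : ℕ := M * Fintype.card ι * (Gamma0 N).index with hK
  have hw : (12 * (M : ℤ) * (Fintype.card ι : ℤ)) * ((Gamma0 N).index : ℤ) = 12 * (K : ℤ) := by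
    rw [hK]
    push_cast
    ring
  choose p _ hp using fun m =>
    LevelOne.exists_poly_discriminant_pow K (ModularForm.mcast hw (Mm m))
  set W : ℍ → ℂ := fun z => ∏ i, UV.vForm (d i) z with hW
  have hWne : ∀ z, W z ≠ 0 := fun z =>
    Finset.prod_ne_zero_iff.mpr fun i _ => UV.vForm_ne_zero (d i) z
  have hPz : ∀ z, P z = W z ^ M * MvPolynomial.eval (fun i => JN.jN (d i) z) A := fun z =>
    congrFun hP z
  have hQz : ∀ z, Q z = W z ^ M * MvPolynomial.eval (fun i => JN.jN (d i) z) B := fun z =>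
    congrFun hQ z
  have hMz : ∀ m z, Mm m z = ModularForm.discriminant z ^ K * (p m).eval (JN.jFun z) := fun m z =>
    hp m z
  refine ⟨p, ?_, ?_⟩
  · rintro ⟨z, hz⟩ h0
    have hQne : (⇑Q : ℍ → ℂ) ≠ 0 := by
      intro hQ0
      have := congrFun hQ0 z
      rw [hQz] at this
      exact mul_ne_zero (pow_ne_zero _ (hWne z)) hz this
    apply hM0 hQne
    ext τ
    rw [hMz, h0]
    simp
  · intro z
    have h := hMrel z
    have hΔ : ModularForm.discriminant z ^ K ≠ 0 :=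
      pow_ne_zero _ (ModularForm.discriminant_ne_zero z)
    have hWn : (W z ^ M) ^ (Gamma0 N).index ≠ 0 := pow_ne_zero _ (pow_ne_zero _ (hWne z))
    have h2 : ∑ m ∈ Finset.range ((Gamma0 N).index + 1),
          (-1 : ℂ) ^ m * Mm m z * (Q z) ^ m * (P z) ^ ((Gamma0 N).index - m) =
        (ModularForm.discriminant z ^ K * (W z ^ M) ^ (Gamma0 N).index) *
          ∑ m ∈ Finset.range ((Gamma0 N).index + 1), (-1 : ℂ) ^ m * (p m).eval (JN.jFun z) *
            (MvPolynomial.eval (fun i => JN.jN (d i) z) B) ^ m *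
            (MvPolynomial.eval (fun i => JN.jN (d i) z) A) ^ ((Gamma0 N).index - m) := by
      rw [Finset.mul_sum]
      refine Finset.sum_congr rfl fun m hm => ?_
      have hmn : m ≤ (Gamma0 N).index := Nat.lt_succ_iff.mp (Finset.mem_range.mp hm)
      have h3 : (W z ^ M) ^ (Gamma0 N).index =
          (W z ^ M) ^ m * (W z ^ M) ^ ((Gamma0 N).index - m) := by
        rw [← pow_add, Nat.add_sub_cancel' hmn]
      rw [hMz, hQz, hPz, h3, mul_pow, mul_pow]
      ring
    rw [h2] at h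
    exact (mul_eq_zero.mp h).resolve_left (mul_ne_zero hΔ hWn)

end Fermat.Agent.S24.DegreeForms

end
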