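/-
S24 piece B5 (DEGREE), core: the function field `FF L N` of `X₀(N)` over `L` is finite over
`L(j)`, of degree at most the index of `Γ₀(N)`, given the bridge between formal `q`-expansions
and functions (`hbridge`) and the presentation of elements as quotients of polynomials in the
generators (`hdiv`).
-/
import Fermat.Agent.S24.Mod.Defs
import Fermat.Agent.S24.Mod.DegreeAlg
import Fermat.Agent.S24.Mod.DegreeDescent
import Fermat.Agent.S24.Mod.DegreeForms

set_option autoImplicit false

noncomputable section

open scoped MatrixGroups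
open UpperHalfPlane ModularCurve IntermediateField

namespace Fermat.Agent.S24.DegreeCore

variable {L : Type*} [Field L] [Algebra ℚ L]

theorem coeffMap_coeffEmb_eq (ι : L →+* ℂ) (x : LaurentSeries ℚ) :
    coeffMap ι (coeffEmb L x) = coeffEmb ℂ x := by
  rw [coeffEmb, coeffMap_coeffMap]
  exact coeffMap_congr (Subsingleton.elim _ _) x

omit [Algebra ℚ L] in
theorem coeffMap_algebraMap_eq (ι : L →+* ℂ) (c : L) :
    coeffMap ι (algebraMap L (LaurentSeries L) c) = algebraMap ℂ (LaurentSeries ℂ) (ι c) := by
  rw [algebraMap_laurentSeries_eq_single, algebraMap_laurentSeries_eq_single, coeffMap_single]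

omit [Algebra ℚ L] in
theorem coeffMap_injective (ι : L →+* ℂ) : Function.Injective (coeffMap ι) := by
  intro x y h
  ext k
  have := congrArg (fun s => HahnSeries.coeff s k) h
  simp only [coeffMap_coeff] at this
  exact ι.injective this

/-- Extending coefficients along `ι` turns the evaluation in `FF L N` into the evaluation of the
complexified polynomial at the complex `q`-expansions. -/
theorem coeffMap_evalL (ι : L →+* ℂ) (N : ℕ) [NeZero N] (P : MvPolynomial (Dv N) L) :
    coeffMap ι ((evalL L N P : ↥(FF L N)) : LaurentSeries L) =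
      evalSer N (MvPolynomial.map ι P) := by
  have h : ((coeffMap ι).comp
      ((algebraMap ↥(FF L N) (LaurentSeries L)).comp (evalL L N).toRingHom)) =
      (evalSer N).toRingHom.comp (MvPolynomial.map ι) := by
    refine MvPolynomial.ringHom_ext ?_ ?_
    · intro c
      simp only [RingHom.coe_comp, Function.comp_apply, AlgHom.toRingHom_eq_coe, RingHom.coe_coe,
        MvPolynomial.map_C]
      rw [evalL, evalSer, MvPolynomial.aeval_C, MvPolynomial.aeval_C]
      exact coeffMap_algebraMap_eq ι c
    · intro d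
      simp only [RingHom.coe_comp, Function.comp_apply, AlgHom.toRingHom_eq_coe, RingHom.coe_coe,
        MvPolynomial.map_X]
      rw [evalL, evalSer, MvPolynomial.aeval_X, MvPolynomial.aeval_X]
      exact coeffMap_coeffEmb_eq ι _
  exact RingHom.congr_fun h P

theorem evalFun_apply (N : ℕ) (G : MvPolynomial (Dv N) ℂ) (z : ℍ) :
    evalFun N G z = MvPolynomial.aeval (fun d : Dv N => S23.JN.jN d.1 z) G := by
  have h : (Pi.evalAlgHom ℂ (fun _ : ℍ => ℂ) z).comp (evalFun N) =
      MvPolynomial.aeval (fun d : Dv N => S23.JN.jN d.1 z) := by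
    apply MvPolynomial.algHom_ext
    intro d
    simp [evalFun]
  exact AlgHom.congr_fun h G

theorem jN_one (z : ℍ) : S23.JN.jN 1 z = S23.JN.jFun z := by
  unfold S23.JN.jN
  congr 1
  ext
  rw [S23.JN.coe_dil]
  simp

/-- `j` is transcendental: a nonzero polynomial in the formal `q`-expansion of `j` has a pole of
order its degree. -/
theorem aeval_coeffEmb_jq_ne_zero (p : Polynomial L) (hp : p ≠ 0) :
    Polynomial.aeval (coeffEmb L jq) p ≠ 0 := by
  intro h
  have hc : (Polynomial.aeval (coeffEmb L jq) p).coeff (-(p.natDegree : ℤ)) = p.leadingCoeff := by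
    rw [Polynomial.aeval_eq_sum_range]
    have hsum : ∀ (s : Finset ℕ) (f : ℕ → LaurentSeries L) (k : ℤ),
        (∑ i ∈ s, f i).coeff k = ∑ i ∈ s, (f i).coeff k := by
      intro s f k
      induction s using Finset.induction_on with
      | empty => simp
      | insert a s ha ih => rw [Finset.sum_insert ha, Finset.sum_insert ha, HahnSeries.coeff_add, ih]
    rw [hsum, Finset.sum_eq_single p.natDegree]
    · rw [Algebra.smul_def, algebraMap_laurentSeries_eq_single, HahnSeries.coeff_single_mul,
        sub_zero, ← map_pow, coeffEmb_coeff, coeff_jq_pow_self, map_one, mul_one]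
      rfl
    · intro k hk hkne
      have hlt : k < p.natDegree := by
        have := Finset.mem_range.mp hk
        omega
      rw [Algebra.smul_def, algebraMap_laurentSeries_eq_single, HahnSeries.coeff_single_mul,
        sub_zero, ← map_pow, coeffEmb_coeff, coeff_jq_pow_of_lt (by exact_mod_cast (by omega)),
        map_zero, mul_zero]
    · intro hn
      exact absurd (Finset.mem_range.mpr (Nat.lt_succ_self _)) hn
  rw [h] at hc
  exact hp (Polynomial.leadingCoeff_eq_zero.mp (by simpa using hc.symm))


/-- The index type of the generators is finite (kept as a plain definition, not an instance). -/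
@[reducible] def fintypeDv (N : ℕ) [NeZero N] : Fintype (Dv N) :=
  Fintype.subtype (Nat.divisors N) fun d => by
    rw [Nat.mem_divisors]
    exact ⟨fun h => h.1, fun h => ⟨h, NeZero.ne N⟩⟩

/-- **Norm equation in the function field**: every quotient `f = P / Q` of polynomials in the
generators of `FF L N` satisfies `∑ m ≤ n, (-1)^m p_m(j) Q^m P^(n-m) = 0` for suitable polynomials
`p_m` over `L` with `p_0 ≠ 0`, where `n = [SL₂(ℤ) : Γ₀(N)]`. -/
theorem exists_rel (ι : L →+* ℂ) (N : ℕ) [NeZero N]
    (hbridge : ∀ G : MvPolynomial (Dv N) ℂ, evalFun N G = 0 → evalSer N G = 0)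
    (P Q : MvPolynomial (Dv N) L) (hQ : evalL L N Q ≠ 0) :
    ∃ p : ℕ → Polynomial L, p 0 ≠ 0 ∧
      ∑ m ∈ Finset.range ((CongruenceSubgroup.Gamma0 N).index + 1),
        Polynomial.aeval (jElt L N) (p m) *
          ((-1) ^ m * evalL L N Q ^ m *
            evalL L N P ^ ((CongruenceSubgroup.Gamma0 N).index - m)) = 0 := by
  classical
  have : ∀ d : Dv N, NeZero d.1 := fun d => ⟨d.ne_zero⟩
  let _ : Fintype (Dv N) := fintypeDv N
  set A : MvPolynomial (Dv N) ℂ := MvPolynomial.map ι P with hA
  set B : MvPolynomial (Dv N) ℂ := MvPolynomial.map ι Q with hB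
  obtain ⟨p, hp0, hrel⟩ := DegreeForms.exists_rel_fun (N := N) (fun d : Dv N => d.1)
    (fun d => d.2) A B
  let j1 : Dv N := ⟨1, one_dvd N⟩
  -- the polynomial identity between functions
  let G : MvPolynomial (Dv N) ℂ := ∑ m ∈ Finset.range ((CongruenceSubgroup.Gamma0 N).index + 1),
    Polynomial.aeval (MvPolynomial.X j1) (p m) *
      ((-1) ^ m * B ^ m * A ^ ((CongruenceSubgroup.Gamma0 N).index - m))
  have hG : evalFun N G = 0 := by
    funext z
    rw [evalFun_apply]
    simp only [G, map_sum, map_mul, map_pow, map_neg, map_one, Pi.zero_apply]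
    rw [← hrel z]
    refine Finset.sum_congr rfl fun m _ => ?_
    rw [← Polynomial.aeval_algHom_apply, MvPolynomial.aeval_X, Polynomial.coe_aeval_eq_eval]
    simp only [j1, jN_one, MvPolynomial.aeval_eq_eval]
    ring
  have hS := hbridge G hG
  -- the Laurent series over `L`
  set J : LaurentSeries L := ((jElt L N : ↥(FF L N)) : LaurentSeries L) with hJ
  set a : LaurentSeries L := ((evalL L N P : ↥(FF L N)) : LaurentSeries L) with ha
  set b : LaurentSeries L := ((evalL L N Q : ↥(FF L N)) : LaurentSeries L) with hb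
  have hJ' : coeffMap ι J = coeffEmb ℂ (jqd j1) := coeffMap_coeffEmb_eq ι _
  have ha' : coeffMap ι a = evalSer N A := coeffMap_evalL ι N P
  have hb' : coeffMap ι b = evalSer N B := coeffMap_evalL ι N Q
  have hS' : ∑ m ∈ Finset.range ((CongruenceSubgroup.Gamma0 N).index + 1),
      Polynomial.aeval (coeffMap ι J) (p m) *
        coeffMap ι ((-1) ^ m * b ^ m * a ^ ((CongruenceSubgroup.Gamma0 N).index - m)) = 0 := by
    rw [← hS]
    simp only [G, map_sum, map_mul, map_pow, map_neg, map_one]
    refine Finset.sum_congr rfl fun m _ => ?_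
    rw [ha', hb', hJ', ← Polynomial.aeval_algHom_apply (evalSer N) (MvPolynomial.X j1) (p m)]
    simp only [evalSer, MvPolynomial.aeval_X]
  -- `B` does not vanish identically
  have hbne : b ≠ 0 := by
    intro h0
    apply hQ
    exact Subtype.ext h0
  have hBfun : ∃ z : ℍ, MvPolynomial.eval (fun d : Dv N => S23.JN.jN d.1 z) B ≠ 0 := by
    by_contra hcon
    push Not at hcon
    have h1 : evalFun N B = 0 := by
      funext z
      rw [evalFun_apply]
      exact hcon z
    have h2 := hbridge B h1
    rw [← hb'] at h2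
    exact hbne (coeffMap_injective ι (by rw [h2, map_zero]))
  obtain ⟨p', hp'0, -, hrel'⟩ := DegreeDescent.exists_descent ι J
    (fun m => (-1) ^ m * b ^ m * a ^ ((CongruenceSubgroup.Gamma0 N).index - m))
    (Finset.range ((CongruenceSubgroup.Gamma0 N).index + 1)) p 0 (hp0 hBfun) hS'
  refine ⟨p', hp'0, ?_⟩
  have key : ∀ x : ↥(FF L N), (FF L N).val x = 0 → x = 0 := fun x hx => Subtype.ext hx
  apply key
  rw [← hrel', map_sum]
  refine Finset.sum_congr rfl fun m _ => ?_
  rw [map_mul, map_mul, map_mul, map_pow, map_pow, map_pow, map_neg, map_one,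
    ← Polynomial.aeval_algHom_apply (FF L N).val (jElt L N) (p' m)]
  rfl


theorem jElt_coe (N : ℕ) [NeZero N] :
    ((jElt L N : ↥(FF L N)) : LaurentSeries L) = coeffEmb L jq := by
  show coeffEmb L (jqd ⟨1, one_dvd N⟩) = coeffEmb L jq
  rw [jqd]
  exact congrArg _ (qExpand_one_apply jq)

theorem aeval_jElt_ne_zero (N : ℕ) [NeZero N] (p : Polynomial L) (hp : p ≠ 0) :
    Polynomial.aeval (jElt L N) p ≠ 0 := by
  intro h
  apply aeval_coeffEmb_jq_ne_zero p hp
  have h1 := congrArg (FF L N).val h
  rw [← Polynomial.aeval_algHom_apply (FF L N).val (jElt L N) p, map_zero] at h1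
  rw [← jElt_coe N]
  exact h1

/-- `j` is transcendental over the constant field. -/
theorem transcendental_jElt (N : ℕ) [NeZero N] : Transcendental L (jElt L N) := by
  rw [transcendental_iff]
  intro p hp
  by_contra hne
  exact aeval_jElt_ne_zero N p hne hp

set_option synthInstance.maxHeartbeats 400000 in
set_option maxHeartbeats 1600000 in
/-- **B5 (DEGREE), core form**: given the bridge and the presentation of the elements of the
function field as quotients of polynomials in the generators, `FF L N` is finite over `L(j)` of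
degree at most the index of `Γ₀(N)`. -/
theorem core (ι : L →+* ℂ) (N : ℕ) [NeZero N]
    (hbridge : ∀ G : MvPolynomial (Dv N) ℂ, evalFun N G = 0 → evalSer N G = 0)
    (hdiv : ∀ f : ↥(FF L N), ∃ P Q : MvPolynomial (Dv N) L,
      evalL L N Q ≠ 0 ∧ f = evalL L N P / evalL L N Q) :
    FiniteDimensional L⟮jElt L N⟯ ↥(FF L N) ∧
      Module.finrank L⟮jElt L N⟯ ↥(FF L N) ≤
        Nat.card (SL(2, ℤ) ⧸ CongruenceSubgroup.Gamma0 N) := by
  have hc0 : CharZero L := algebraRat.charZero L
  have hc1 : CharZero L⟮jElt L N⟯ :=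
    charZero_of_injective_algebraMap (algebraMap L L⟮jElt L N⟯).injective
  have hn : Nat.card (SL(2, ℤ) ⧸ CongruenceSubgroup.Gamma0 N) =
      (CongruenceSubgroup.Gamma0 N).index := rfl
  rw [hn]
  apply DegreeAlg.finrank_le_of_forall_exists_poly
  intro f
  obtain ⟨P, Q, hQ, rfl⟩ := hdiv f
  obtain ⟨p, hp0, hrel⟩ := exists_rel ι N hbridge P Q hQ
  let jE : L⟮jElt L N⟯ := ⟨jElt L N, mem_adjoin_simple_self L _⟩
  have hjE : ∀ r : Polynomial L, algebraMap L⟮jElt L N⟯ ↥(FF L N) (Polynomial.aeval jE r) =
      Polynomial.aeval (jElt L N) r := fun r =>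
    (Polynomial.aeval_algebraMap_apply (A := L⟮jElt L N⟯) (B := ↥(FF L N)) jE r).symm
  let c : ℕ → L⟮jElt L N⟯ := fun m => (-1) ^ m * Polynomial.aeval jE (p m)
  refine ⟨∑ m ∈ Finset.range ((CongruenceSubgroup.Gamma0 N).index + 1),
    Polynomial.C (c m) * Polynomial.X ^ ((CongruenceSubgroup.Gamma0 N).index - m), ?_, ?_, ?_⟩
  · intro hq
    have hcoeff := congrArg (fun r => Polynomial.coeff r (CongruenceSubgroup.Gamma0 N).index) hq
    simp only [Polynomial.finsetSum_coeff, Polynomial.coeff_C_mul, Polynomial.coeff_X_pow,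
      Polynomial.coeff_zero] at hcoeff
    rw [Finset.sum_eq_single 0] at hcoeff
    · simp only [Nat.sub_zero, if_true, mul_one, c, pow_zero, one_mul] at hcoeff
      apply aeval_jElt_ne_zero N (p 0) hp0
      rw [← hjE, hcoeff, map_zero]
    · intro m hm hm0
      have hmn : m ≤ (CongruenceSubgroup.Gamma0 N).index :=
        Nat.lt_succ_iff.mp (Finset.mem_range.mp hm)
      rw [if_neg (by omega), mul_zero]
    · intro h0
      exact absurd (Finset.mem_range.mpr (Nat.succ_pos _)) h0
  · apply Polynomial.natDegree_sum_le_of_forall_le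
    intro m _
    exact (Polynomial.natDegree_C_mul_X_pow_le _ _).trans (Nat.sub_le _ _)
  · simp only [map_sum, map_mul, Polynomial.aeval_C, map_pow, Polynomial.aeval_X]
    have hQn : evalL L N Q ^ (CongruenceSubgroup.Gamma0 N).index ≠ 0 := pow_ne_zero _ hQ
    apply mul_right_cancel₀ hQn
    rw [zero_mul, Finset.sum_mul, ← hrel]
    refine Finset.sum_congr rfl fun m hm => ?_
    have hmn : m ≤ (CongruenceSubgroup.Gamma0 N).index :=
      Nat.lt_succ_iff.mp (Finset.mem_range.mp hm)
    have h3 : evalL L N Q ^ (CongruenceSubgroup.Gamma0 N).index =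
        evalL L N Q ^ m * evalL L N Q ^ ((CongruenceSubgroup.Gamma0 N).index - m) := by
      rw [← pow_add, Nat.add_sub_cancel' hmn]
    simp only [c, map_mul, map_pow, map_neg, map_one, hjE]
    rw [h3, div_pow]
    field_simp

end Fermat.Agent.S24.DegreeCore

end
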