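/-
S24 piece B5 (DEGREE): the function field of `X₀(N)` over `L` is finite over `L(j)`, of degree
at most the index of `Γ₀(N)`.

Proof (in `DegreeCore.lean` and its imports).  Every element of `FF L N` is `evalL P / evalL Q`
(`Ext.exists_eq_div`).  The functions `evalFun N (map ι P)`, `evalFun N (map ι Q)` are quotients
`A / W`, `B / W` of modular forms of the same weight on `Γ₀(N)` (`DegreeForms.isMF_homog`), so by
`S23.NormPoly.exists_normPoly` and `S23.LevelOne.exists_poly_discriminant_pow`
`∑_{m ≤ μ} (-1)^m p_m(j) B^m A^(μ-m) = 0` with `p_m ∈ ℂ[X]`, `p_0 ≠ 0`, `μ` the index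
(`DegreeForms.exists_rel_fun`).  This is a polynomial identity between functions, hence
(`Bridge.bridge`) between Laurent series over ℂ; a `L`-linear functional on `ℂ`, applied
coefficientwise, turns it into a relation with coefficients in `L[j]`
(`DegreeDescent.exists_descent`).  So every element of `FF L N` is a root of a nonzero polynomial
of degree `≤ μ` over `L(j)` (`j` is transcendental), and a field extension of characteristic zero
all of whose elements have degree `≤ μ` is finite of degree `≤ μ`
(`DegreeAlg.finrank_le_of_forall_exists_poly`, primitive element theorem).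
-/
import Fermat.Agent.S24.Mod.Defs
import Fermat.Agent.S24.Mod.Bridge
import Fermat.Agent.S24.Mod.Ext
import Fermat.Agent.S24.Mod.DegreeCore

set_option autoImplicit false

noncomputable section

open scoped MatrixGroups
open UpperHalfPlane ModularCurve IntermediateField

namespace Fermat.Agent.S24.Degree

theorem finiteDimensional {L : Type*} [Field L] [Algebra ℚ L] (ι : L →+* ℂ) (N : ℕ) [NeZero N] :
    FiniteDimensional L⟮jElt L N⟯ ↥(FF L N) :=
  (DegreeCore.core ι N (fun G hG => (Bridge.bridge N G).mpr hG) (Ext.exists_eq_div L N)).1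

theorem finrank_le {L : Type*} [Field L] [Algebra ℚ L] (ι : L →+* ℂ) (N : ℕ) [NeZero N] :
    Module.finrank L⟮jElt L N⟯ ↥(FF L N)
      ≤ Nat.card (SL(2, ℤ) ⧸ CongruenceSubgroup.Gamma0 N) :=
  (DegreeCore.core ι N (fun G hG => (Bridge.bridge N G).mpr hG) (Ext.exists_eq_div L N)).2

end Fermat.Agent.S24.Degree

end
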