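/-
S24 piece B-DATA, part 1: the embeddings `tau i = actF (out i)⁻¹ ∘ Phi` of the function field
`FF L N` into the fraction field of `Mero.ring N`, indexed by the cosets `SL(2, ℤ) ⧸ Γ₀(N)`, and
the generic construction of a `ValDatum` from a chart with a symmetry.
-/
import Fermat.Agent.S24.Mod.Defs
import Fermat.Agent.S24.Mod.Ext
import Fermat.Agent.S24.Mod.Bridge
import Fermat.Agent.S24.MeroOrd

set_option autoImplicit false

noncomputable section

open scoped MatrixGroups
open UpperHalfPlane ModularCurve CongruenceSubgroup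

namespace Fermat.Agent.S24.DataTau

open Fermat.Agent.S23 Fermat.Agent.S24.Mero

variable {L : Type*} [Field L] [Algebra ℚ L] (ι : L →+* ℂ) (N : ℕ) [NeZero N]

/-! ### The embedding `Phi` -/

/-- Evaluation of polynomials at the functions `z ↦ j (d z)`, inside `Mero.ring N`. -/
def evalRing : MvPolynomial (Dv N) L →+* Mero.ring N :=
  MvPolynomial.eval₂Hom ((Mero.const N).comp ι) (fun d => Mero.jd N d.1 d.2)

omit [Algebra ℚ L] in
theorem coe_evalRing (P : MvPolynomial (Dv N) L) :
    ((evalRing ι N P : Mero.ring N) : ℍ → ℂ) = evalFun N (MvPolynomial.map ι P) := by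
  have h : (Mero.ring N).subtype.comp (evalRing ι N)
      = ((evalFun N : MvPolynomial (Dv N) ℂ →+* (ℍ → ℂ))).comp (MvPolynomial.map ι) := by
    apply MvPolynomial.ringHom_ext
    · intro c
      simp only [RingHom.comp_apply, evalRing, MvPolynomial.eval₂Hom_C, MvPolynomial.map_C,
        evalFun, RingHom.coe_coe, MvPolynomial.aeval_C]
      rfl
    · intro d
      simp only [RingHom.comp_apply, evalRing, MvPolynomial.eval₂Hom_X', MvPolynomial.map_X,
        evalFun, RingHom.coe_coe, MvPolynomial.aeval_X]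
      rfl
  exact congrFun (congrArg DFunLike.coe h) P

theorem evalRing_eq_zero_iff (P : MvPolynomial (Dv N) L) :
    evalRing ι N P = 0 ↔ evalL L N P = 0 := by
  rw [Bridge.bridgeL ι N P, ← coe_evalRing]
  constructor
  · intro h
    rw [h]
    rfl
  · intro h
    exact Subtype.ext h

/-- Evaluation of polynomials, landing in the fraction field. -/
def evalFld : MvPolynomial (Dv N) L →+* Fld N :=
  (algebraMap (Mero.ring N) (Fld N)).comp (evalRing ι N)

theorem evalFld_eq_zero_iff (P : MvPolynomial (Dv N) L) :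
    evalL L N P = 0 ↔ evalFld ι N P = 0 := by
  rw [← evalRing_eq_zero_iff ι N P, evalFld, RingHom.comp_apply]
  constructor
  · intro h
    rw [h, map_zero]
  · intro h
    exact IsFractionRing.injective (Mero.ring N) (Fld N) (by rw [h, map_zero])

theorem exists_PhiL :
    ∃ τ : ↥(FF L N) →+* Fld N, ∀ P, τ (evalL L N P) = evalFld ι N P :=
  Ext.exists_hom L N (evalFld ι N) (evalFld_eq_zero_iff ι N)

/-- The embedding of the function field `FF L N` into the fraction field of `Mero.ring N`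
sending the formal `q`-expansion of `j (d z)` to the function `z ↦ j (d z)`. -/
def PhiL : ↥(FF L N) →+* Fld N := (exists_PhiL ι N).choose

theorem PhiL_evalL (P : MvPolynomial (Dv N) L) :
    PhiL ι N (evalL L N P) = algebraMap (Mero.ring N) (Fld N) (evalRing ι N P) :=
  (exists_PhiL ι N).choose_spec P

theorem PhiL_algebraMap (c : L) :
    PhiL ι N (algebraMap L ↥(FF L N) c) = algebraMap (Mero.ring N) (Fld N) (Mero.const N (ι c)) := by
  have h := PhiL_evalL ι N (MvPolynomial.C c)
  have e1 : evalL L N (MvPolynomial.C c) = algebraMap L ↥(FF L N) c := by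
    simp [evalL]
  have e2 : evalRing ι N (MvPolynomial.C c) = Mero.const N (ι c) := by
    simp [evalRing]
  rwa [e1, e2] at h

theorem PhiL_gen (d : Dv N) :
    PhiL ι N (gen L N d) = algebraMap (Mero.ring N) (Fld N) (Mero.jd N d.1 d.2) := by
  have h := PhiL_evalL ι N (MvPolynomial.X d)
  have e1 : evalL L N (MvPolynomial.X d) = gen L N d := by
    simp [evalL]
  have e2 : evalRing ι N (MvPolynomial.X d) = Mero.jd N d.1 d.2 := by
    simp [evalRing]
  rwa [e1, e2] at h

theorem PhiL_jElt :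
    PhiL ι N (jElt L N) = algebraMap (Mero.ring N) (Fld N) (Mero.jElt N) := by
  rw [jElt, PhiL_gen, Mero.jd_one]

/-- The image of `Phi` consists of `Γ₀(N)`-invariant elements. -/
theorem actF_PhiL_of_mem {γ : SL(2, ℤ)} (hγ : γ ∈ Gamma0 N) (f : ↥(FF L N)) :
    actF N γ (PhiL ι N f) = PhiL ι N f := by
  have h : ((actF N γ : Fld N →+* Fld N)).comp (PhiL ι N) = PhiL ι N := by
    apply Ext.hom_ext L N
    intro P
    rw [RingHom.comp_apply, PhiL_evalL]
    show actF N γ (algebraMap (Mero.ring N) (Fld N) (evalRing ι N P)) = _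
    rw [actF_algebraMap]
    congr 1
    have h2 : ((Mero.act N γ : Mero.ring N →+* Mero.ring N)).comp (evalRing ι N)
        = evalRing ι N := by
      apply MvPolynomial.ringHom_ext
      · intro c
        simp only [RingHom.comp_apply, evalRing, MvPolynomial.eval₂Hom_C]
        exact Mero.act_const N γ (ι c)
      · intro d
        simp only [RingHom.comp_apply, evalRing, MvPolynomial.eval₂Hom_X']
        exact Mero.act_jd_of_mem N d.1 d.2 hγ
    exact congrFun (congrArg DFunLike.coe h2) P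
  exact congrFun (congrArg DFunLike.coe h) f

/-! ### The embeddings indexed by cosets -/

/-- The embedding attached to a coset `g Γ₀(N)`: `f ↦ (Phi f) ∘ g⁻¹`. -/
def tau (i : SL(2, ℤ) ⧸ Gamma0 N) : ↥(FF L N) →+* Fld N :=
  ((actF N (Quotient.out i)⁻¹ : Fld N →+* Fld N)).comp (PhiL ι N)

theorem tau_apply (i : SL(2, ℤ) ⧸ Gamma0 N) (f : ↥(FF L N)) :
    tau ι N i f = actF N (Quotient.out i)⁻¹ (PhiL ι N f) := rfl

/-- `tau` can be computed with any representative of the coset. -/
theorem tau_mk (g : SL(2, ℤ)) (f : ↥(FF L N)) :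
    tau ι N (QuotientGroup.mk g) f = actF N g⁻¹ (PhiL ι N f) := by
  rw [tau_apply]
  set a := Quotient.out (QuotientGroup.mk g : SL(2, ℤ) ⧸ Gamma0 N) with ha
  have hmk : (QuotientGroup.mk a : SL(2, ℤ) ⧸ Gamma0 N) = QuotientGroup.mk g :=
    Quotient.out_eq _
  have hmem : g⁻¹ * a ∈ Gamma0 N := QuotientGroup.eq.mp hmk.symm
  have e : a⁻¹ = (g⁻¹ * a)⁻¹ * g⁻¹ := by group
  rw [e, actF_mul, actF_PhiL_of_mem ι N (inv_mem hmem)]

theorem tau_smul (g : SL(2, ℤ)) (i : SL(2, ℤ) ⧸ Gamma0 N) (f : ↥(FF L N)) :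
    tau ι N (g • i) f = actF N g⁻¹ (tau ι N i f) := by
  induction i using QuotientGroup.induction_on with
  | H a =>
    have : g • (QuotientGroup.mk a : SL(2, ℤ) ⧸ Gamma0 N) = QuotientGroup.mk (g * a) := rfl
    rw [this, tau_mk, tau_mk, mul_inv_rev, actF_mul]

theorem tau_algebraMap (i : SL(2, ℤ) ⧸ Gamma0 N) (c : L) :
    tau ι N i (algebraMap L ↥(FF L N) c)
      = algebraMap (Mero.ring N) (Fld N) (Mero.const N (ι c)) := by
  rw [tau_apply, PhiL_algebraMap, actF_algebraMap, Mero.act_const]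

theorem tau_jElt (i : SL(2, ℤ) ⧸ Gamma0 N) :
    tau ι N i (jElt L N) = algebraMap (Mero.ring N) (Fld N) (Mero.jElt N) := by
  rw [tau_apply, PhiL_jElt, actF_algebraMap, Mero.act_jElt]

theorem tau_injective : Function.Injective (tau ι N) := by
  intro i j hij
  induction i using QuotientGroup.induction_on with
  | H a =>
  induction j using QuotientGroup.induction_on with
  | H b =>
    have h := congrFun (congrArg DFunLike.coe hij) (gen L N ⟨N, dvd_rfl⟩)
    rw [tau_mk, tau_mk, PhiL_gen, actF_algebraMap, actF_algebraMap] at h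
    have h2 := IsFractionRing.injective (Mero.ring N) (Fld N) h
    have h3 := (Mero.act_jd_self_eq_iff N a⁻¹ b⁻¹).mp h2
    rw [inv_inv] at h3
    exact QuotientGroup.eq.mpr h3

/-- The permutation `cosetPerm N g⁻¹` of the index set corresponds to `actF g`. -/
theorem tau_cosetPerm_inv (g : SL(2, ℤ)) (i : SL(2, ℤ) ⧸ Gamma0 N) (f : ↥(FF L N)) :
    tau ι N (cosetPerm N g⁻¹ i) f = actF N g (tau ι N i f) := by
  have : cosetPerm N g⁻¹ i = g⁻¹ • i := rfl
  rw [this, tau_smul, inv_inv]

omit [NeZero N] in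
theorem cosetPerm_inv_pow_apply (g : SL(2, ℤ)) (d : ℕ) (i : SL(2, ℤ) ⧸ Gamma0 N) :
    (cosetPerm N g⁻¹ ^ d) i = (g ^ d)⁻¹ • i := by
  induction d with
  | zero => simp
  | succ k ih =>
    rw [pow_succ', Equiv.Perm.mul_apply, ih]
    show g⁻¹ • ((g ^ k)⁻¹ • i) = _
    rw [← mul_smul, ← mul_inv_rev, ← pow_succ]

theorem tau_cosetPerm_inv_pow (g : SL(2, ℤ)) (d : ℕ) (i : SL(2, ℤ) ⧸ Gamma0 N) (f : ↥(FF L N)) :
    tau ι N ((cosetPerm N g⁻¹ ^ d) i) f = actF N (g ^ d) (tau ι N i f) := by
  rw [cosetPerm_inv_pow_apply, tau_smul, inv_inv]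

/-! ### The generic datum -/

/-- The valued datum attached to a chart with a symmetry `g` whose multiplier is a primitive
`m`-th root of unity. -/
def valDatumOfChart {χ : ℂ → ℍ} {p : ℂ} (h : IsChart N χ p) {g : SL(2, ℤ)} {gh : ℂ → ℂ}
    {lam : ℂ} (s : IsSym N χ p g gh lam) (hgh : AnalyticAt ℂ gh p) {m : ℕ} (hm : 0 < m)
    (hprim : IsPrimitiveRoot lam m) (hpow : cosetPerm N g⁻¹ ^ m = 1) (y : ↥(FF L N))
    (hy : ∀ i, Mero.val h (tau ι N i y) = WithZero.exp (-(m : ℤ)))
    (hy' : ∀ i j, tau ι N i y = tau ι N j y) :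
    ValDatum L (Mero.val h) y (cosetPerm N g⁻¹) m where
  τ := tau ι N
  τ_injective := tau_injective ι N
  τ_const i j c := by rw [tau_algebraMap, tau_algebraMap]
  w_const i c hc := by
    rw [tau_algebraMap, val_algebraMap, valRing_apply,
      ordRing_const (ι c) ((map_ne_zero ι).mpr hc)]
    rfl
  τ_y := hy'
  m_pos := hm
  w_y := hy
  w_σ i f := by rw [tau_cosetPerm_inv, val_actF h s hgh]
  dvd i d hd f hf := by
    have hne : tau ι N i f ≠ 0 := (map_ne_zero (tau ι N i)).mpr hf
    have hfix : actF N (g ^ d) (tau ι N i f) = tau ι N i f := by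
      rw [← tau_cosetPerm_inv_pow, hd]
    have := dvd_ord_of_fixed h s hm hprim d hne hfix
    rw [Mero.ord] at this
    exact (dvd_neg).mp this
  σ_pow := hpow

end Fermat.Agent.S24.DataTau
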