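/-
S24 piece B-DATA (MODULAR DATA): the valued uniformisation data of the function field of `X₀(N)`
over `L` at every point of the `j`-line and at infinity.

Route (helper13 MERO + helper29 JLOCAL, generic in `L`, `ι : L →+* ℂ`):
`Ω = FractionRing (Mero.ring N)`, `τ i = actF (out i)⁻¹ ∘ Phi`, `w a` = order at a point `z_a`
with `jFun z_a = ι a` (`z_0 = rho`, `z_1728 = I`; `JLocal.jFun_surjective`, `JLocal.order_jFun`),
`winf` = order in `q_N` at the cusp.  Stabilisers: trivial, `⟨S⟩` at `I`, `⟨S * T⟩` at `rho`,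
`⟨T⟩` at the cusp; divisibility of orders of invariant germs by the order of the stabiliser.
-/
import Fermat.Agent.S24.Mod.Defs
import Fermat.Agent.S24.Mod.DataTau
import Fermat.Agent.S24.MeroPoint
import Fermat.Agent.S24.MeroCusp
import Fermat.Agent.S24.JLocal
import Fermat.Agent.S24.GenusNum
import Fermat.Agent.S24.Comb.Count
import Fermat.Agent.S24.CombCusp

set_option autoImplicit false

noncomputable section

open scoped MatrixGroups
open UpperHalfPlane ModularCurve

namespace Fermat.Agent.S24.Data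

open Fermat.Agent.S23 Fermat.Agent.S24.Mero Fermat.Agent.S24.DataTau CongruenceSubgroup

variable {L : Type*} [Field L] [Algebra ℚ L] (ι : L →+* ℂ) (N : ℕ) [NeZero N]

/-! ### Base points -/

/-- A point of the upper half plane above `a`: `rho` for `a = 0`, `I` for `a = 1728`. -/
def zOf (a : L) : ℍ := by
  classical
  exact if a = 0 then JLocal.rho else if a = 1728 then UpperHalfPlane.I
    else (JLocal.jFun_surjective (ι a)).choose

theorem ofNat_1728_ne_zero : (1728 : L) ≠ 0 := by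
  have : CharZero L := algebraRat.charZero L
  norm_num

omit [Algebra ℚ L] in
theorem zOf_zero : zOf ι (0 : L) = JLocal.rho := by
  classical
  simp [zOf]

theorem zOf_1728 : zOf ι (1728 : L) = UpperHalfPlane.I := by
  classical
  simp [zOf, ofNat_1728_ne_zero]

omit [Algebra ℚ L] in
theorem jFun_zOf (a : L) : JN.jFun (zOf ι a) = ι a := by
  classical
  unfold zOf
  split_ifs with h0 h1
  · rw [h0, map_zero]
    exact JLocal.jFun_rho
  · rw [h1, map_ofNat]
    exact JLocal.jFun_I
  · exact (JLocal.jFun_surjective (ι a)).choose_spec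

/-! ### Data at finite points -/

theorem tau_jElt_sub (a : L) (i : SL(2, ℤ) ⧸ Gamma0 N) :
    tau ι N i (jElt L N - algebraMap L ↥(FF L N) a)
      = algebraMap (Mero.ring N) (Fld N) (Mero.jElt N - Mero.const N (JN.jFun (zOf ι a))) := by
  rw [map_sub, tau_jElt, tau_algebraMap, jFun_zOf, map_sub]

/-- The datum at a finite point, for a stabiliser element `g` whose multiplier is a primitive
`m`-th root of unity, `m` being the order of `j - a` at the base point. -/
theorem valDatum_point (a : L) (g : SL(2, ℤ)) (hg : g • zOf ι a = zOf ι a) (m : ℕ) (hm : 0 < m)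
    (hord : analyticOrderAt (fun w : ℂ => JN.jFun (ofComplex w) - JN.jFun (zOf ι a))
      (zOf ι a : ℂ) = m)
    (hprim : IsPrimitiveRoot (mult g (zOf ι a)) m) (hpow : cosetPerm N g⁻¹ ^ m = 1) :
    Nonempty (ValDatum L (valAt N (zOf ι a)) (jElt L N - algebraMap L ↥(FF L N) a)
      (cosetPerm N g⁻¹) m) := by
  refine ⟨valDatumOfChart ι N (isChart_point N (zOf ι a)) (isSym_point N hg)
    (analyticAt_moeb g (zOf ι a)) hm hprim hpow _ ?_ ?_⟩
  · intro i
    rw [tau_jElt_sub]
    exact valAt_jElt_sub N (zOf ι a) hord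
  · intro i j
    rw [tau_jElt_sub, tau_jElt_sub]

theorem valDatum_generic (a : L) (h0 : a ≠ 0) (h1 : a ≠ 1728) :
    Nonempty (ValDatum L (valAt N (zOf ι a)) (jElt L N - algebraMap L ↥(FF L N) a)
      (1 : Equiv.Perm (SL(2, ℤ) ⧸ Gamma0 N)) 1) := by
  have hj0 : JN.jFun (zOf ι a) ≠ 0 := by
    rw [jFun_zOf]
    exact (map_ne_zero ι).mpr h0
  have hj1 : JN.jFun (zOf ι a) ≠ 1728 := by
    rw [jFun_zOf]
    intro h
    apply h1
    apply ι.injective
    rw [h, map_ofNat]
  have hord := JLocal.order_jFun_generic (zOf ι a) hj0 hj1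
  have h := valDatum_point ι N a 1 (one_smul _ _) 1 one_pos (by simpa using hord)
    (by rw [mult_one]; exact IsPrimitiveRoot.one) (by rw [inv_one, Comb.cosetPerm_one, pow_one])
  rwa [inv_one, Comb.cosetPerm_one] at h

omit [NeZero N] in
theorem cosetPerm_inv_pow_eq_one {g : SL(2, ℤ)} {m : ℕ} (h : g ^ m = -1) :
    cosetPerm N g⁻¹ ^ m = 1 := by
  ext i
  rw [cosetPerm_inv_pow_apply, h, Equiv.Perm.one_apply, inv_smul_eq_iff, GenusNum.neg_one_smul]

theorem valDatum_zero :
    Nonempty (ValDatum L (valAt N (zOf ι (0 : L))) (jElt L N - algebraMap L ↥(FF L N) 0)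
      (cosetPerm N (ModularGroup.S * ModularGroup.T)⁻¹) 3) := by
  have hz : zOf ι (0 : L) = JLocal.rho := zOf_zero ι
  have hg : (ModularGroup.S * ModularGroup.T) • zOf ι (0 : L) = zOf ι (0 : L) := by
    rw [hz, ← JLocal.gST_eq]
    exact JLocal.gST_smul_rho
  have hord : analyticOrderAt (fun w : ℂ => JN.jFun (ofComplex w) - JN.jFun (zOf ι (0 : L)))
      (zOf ι (0 : L) : ℂ) = (3 : ℕ) := by
    rw [hz, JLocal.order_jFun, if_pos JLocal.jFun_rho]
    rfl
  exact valDatum_point ι N 0 _ hg 3 (by norm_num) hord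
    (by rw [hz]; exact isPrimitiveRoot_mult_ST _ JLocal.rho_sq_add)
    (cosetPerm_inv_pow_eq_one N GenusNum.ST_cube)

theorem valDatum_1728 :
    Nonempty (ValDatum L (valAt N (zOf ι (1728 : L))) (jElt L N - algebraMap L ↥(FF L N) 1728)
      (cosetPerm N ModularGroup.S⁻¹) 2) := by
  have hz : zOf ι (1728 : L) = UpperHalfPlane.I := zOf_1728 ι
  have hg : ModularGroup.S • zOf ι (1728 : L) = zOf ι (1728 : L) := by
    rw [hz]
    exact JLocal.S_smul_I
  have hne : JN.jFun UpperHalfPlane.I ≠ 0 := by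
    rw [JLocal.jFun_I]
    norm_num
  have hord : analyticOrderAt (fun w : ℂ => JN.jFun (ofComplex w) - JN.jFun (zOf ι (1728 : L)))
      (zOf ι (1728 : L) : ℂ) = (2 : ℕ) := by
    rw [hz, JLocal.order_jFun, if_neg hne, if_pos JLocal.jFun_I]
    rfl
  exact valDatum_point ι N 1728 _ hg 2 (by norm_num) hord
    (by rw [hz]; exact isPrimitiveRoot_mult_S _ UpperHalfPlane.coe_I)
    (cosetPerm_inv_pow_eq_one N GenusNum.S_sq)

/-! ### The datum at the cusp -/

omit [NeZero N] in
theorem T_pow_smul (i : SL(2, ℤ) ⧸ Gamma0 N) : (ModularGroup.T ^ N) • i = i := by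
  induction i using QuotientGroup.induction_on with
  | H g =>
    show ((ModularGroup.T ^ N * g : SL(2, ℤ)) : SL(2, ℤ) ⧸ Gamma0 N) = g
    rw [← zpow_natCast, Comb.mk_eq_mk_iff, Comb.T_zpow_mul_apply_zero_zero,
      Comb.T_zpow_mul_apply_one_zero, ZMod.intCast_zmod_eq_zero_iff_dvd]
    exact ⟨g 1 0 * g 1 0, by ring⟩

omit [NeZero N] in
theorem cosetPerm_T_inv_pow : cosetPerm N ModularGroup.T⁻¹ ^ N = 1 := by
  ext i
  rw [cosetPerm_inv_pow_apply, Equiv.Perm.one_apply, inv_smul_eq_iff, T_pow_smul]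

include ι in
theorem valDatum_cusp :
    Nonempty (ValDatum L (valInf N) (jElt L N)⁻¹ (cosetPerm N ModularGroup.T⁻¹) N) := by
  have hy : ∀ i, tau ι N i (jElt L N)⁻¹ = (algebraMap (Mero.ring N) (Fld N) (Mero.jElt N))⁻¹ := by
    intro i
    rw [map_inv₀, tau_jElt]
  refine ⟨valDatumOfChart ι N (isChart_inf N) (isSym_inf N) (by fun_prop)
    (Nat.pos_of_ne_zero (NeZero.ne N)) (isPrimitiveRoot_zetaN N) (cosetPerm_T_inv_pow N) _ ?_ ?_⟩
  · intro i
    rw [hy]
    exact valInf_inv_jElt N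
  · intro i j
    rw [hy, hy]

/-! ### The statement -/

theorem exists_valDatum {L : Type*} [Field L] [Algebra ℚ L] (ι : L →+* ℂ) (N : ℕ) [NeZero N] :
    ∃ (Ω : Type) (_ : Field Ω) (w : L → Valuation Ω (WithZero (Multiplicative ℤ)))
      (winf : Valuation Ω (WithZero (Multiplicative ℤ))),
      (∀ a : L, a ≠ 0 → a ≠ 1728 →
        Nonempty (ValDatum L (w a) (jElt L N - algebraMap L ↥(FF L N) a)
          (1 : Equiv.Perm (SL(2, ℤ) ⧸ CongruenceSubgroup.Gamma0 N)) 1)) ∧
      Nonempty (ValDatum L (w 0) (jElt L N - algebraMap L ↥(FF L N) 0)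
        (cosetPerm N (ModularGroup.S * ModularGroup.T)⁻¹) 3) ∧
      Nonempty (ValDatum L (w 1728) (jElt L N - algebraMap L ↥(FF L N) 1728)
        (cosetPerm N ModularGroup.S⁻¹) 2) ∧
      Nonempty (ValDatum L winf (jElt L N)⁻¹ (cosetPerm N ModularGroup.T⁻¹) N) :=
  ⟨Fld N, inferInstance, fun a => valAt N (zOf ι a), valInf N,
    fun a h0 h1 => valDatum_generic ι N a h0 h1, valDatum_zero ι N, valDatum_1728 ι N,
    valDatum_cusp ι N⟩

end Fermat.Agent.S24.Data

end
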