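/-
S24 piece B-DATA, abstract core: a group acting on a valued field produces a valued
uniformisation datum (`ValDatum`) on the coset space.  Pure algebra (Mathlib + `S24/Defs`).
-/
import Mathlib
import Fermat.Agent.S24.Defs

set_option autoImplicit false

noncomputable section

namespace Fermat.Agent.S24.DataCore

variable {G : Type*} [Group G]

/-- `out (g⁻¹ • i) = g⁻¹ * out i * h` for some `h ∈ H`. -/
theorem exists_out_smul (H : Subgroup G) (g : G) (i : G ⧸ H) :
    ∃ h ∈ H, (g⁻¹ • i).out = g⁻¹ * i.out * h := by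
  have h1 : ((g⁻¹ * i.out : G) : G ⧸ H) = g⁻¹ • i := by
    conv_rhs => rw [← QuotientGroup.out_eq' i]
    rfl
  have h2 : (((g⁻¹ • i).out : G) : G ⧸ H) = ((g⁻¹ * i.out : G) : G ⧸ H) := by
    rw [h1]
    exact QuotientGroup.out_eq' _
  have h3 := QuotientGroup.eq.mp h2
  refine ⟨(g⁻¹ * i.out)⁻¹ * (g⁻¹ • i).out, ?_, ?_⟩
  · convert H.inv_mem h3 using 1
    group
  · group

/-- If `g ^ d • i = i` then `(out i)⁻¹ * g ^ d * out i ∈ H`. -/
theorem conj_mem_of_smul_eq (H : Subgroup G) (g : G) (i : G ⧸ H) (h : g • i = i) :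
    (i.out)⁻¹ * g * i.out ∈ H := by
  have h1 : ((g * i.out : G) : G ⧸ H) = g • i := by
    conv_rhs => rw [← QuotientGroup.out_eq' i]
    rfl
  have h2 : ((i.out : G) : G ⧸ H) = ((g * i.out : G) : G ⧸ H) := by
    rw [h1, h]
    exact QuotientGroup.out_eq' _
  have h3 := QuotientGroup.eq.mp h2
  simpa [mul_assoc] using h3

variable {K F Ω : Type*} [Field K] [Field F] [Algebra K F] [Field Ω]

/-- **Abstract assembly.**  `G` acts on the valued field `(Ω, w)` (right-action convention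
`act (γ * γ') = act γ' ∘ act γ`), `Φ : F →+* Ω` has `H`-invariant image and separates the cosets
of `H`, `g0` preserves `w`, and the `w`-orders of elements fixed by `g0 ^ d` are divisible by
`m / gcd m d`.  Then the embeddings `τ i := act (out i)⁻¹ ∘ Φ`, `i : G ⧸ H`, form a `ValDatum`
for the permutation `i ↦ g0⁻¹ • i`. -/
theorem valDatum_of_action (H : Subgroup G) (act : G → Ω ≃+* Ω)
    (act_mul : ∀ (γ γ' : G) (y : Ω), act (γ * γ') y = act γ' (act γ y))
    (Φ : F →+* Ω)
    (hH : ∀ h ∈ H, ∀ f : F, act h (Φ f) = Φ f)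
    (hsep : ∀ γ γ' : G, (∀ f : F, act γ (Φ f) = act γ' (Φ f)) → γ * γ'⁻¹ ∈ H)
    (w : Valuation Ω (WithZero (Multiplicative ℤ))) (y : F) (g0 : G) (m : ℕ) (hm : 0 < m)
    (hconst : ∀ (γ : G) (c : K), act γ (Φ (algebraMap K F c)) = Φ (algebraMap K F c))
    (hwconst : ∀ c : K, c ≠ 0 → w (Φ (algebraMap K F c)) = 1)
    (hy : ∀ γ : G, act γ (Φ y) = Φ y)
    (hwy : w (Φ y) = WithZero.exp (-(m : ℤ)))
    (hw : ∀ z : Ω, w (act g0 z) = w z)
    (hdvd : ∀ (d : ℕ) (z : Ω), z ≠ 0 → act (g0 ^ d) z = z →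
      ((m / Nat.gcd m d : ℕ) : ℤ) ∣ WithZero.log (w z))
    (hpow : ∀ i : G ⧸ H, g0 ^ m • i = i) :
    Nonempty (ValDatum K w y (MulAction.toPerm g0⁻¹ : Equiv.Perm (G ⧸ H)) m) := by
  classical
  refine ⟨{
    τ := fun i => (act (i.out)⁻¹ : Ω →+* Ω).comp Φ
    τ_injective := ?_
    τ_const := ?_
    w_const := ?_
    τ_y := ?_
    m_pos := hm
    w_y := ?_
    w_σ := ?_
    dvd := ?_
    σ_pow := ?_ }⟩
  · -- injectivity
    intro i j hij
    have h1 : ∀ f : F, act (i.out)⁻¹ (Φ f) = act (j.out)⁻¹ (Φ f) := fun f => by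
      have := RingHom.congr_fun hij f
      simpa using this
    have h2 := hsep _ _ h1
    rw [inv_inv] at h2
    have h3 : ((i.out : G) : G ⧸ H) = ((j.out : G) : G ⧸ H) := QuotientGroup.eq.mpr h2
    rwa [QuotientGroup.out_eq', QuotientGroup.out_eq'] at h3
  · intro i j c
    simp only [RingHom.coe_comp, RingHom.coe_coe, Function.comp_apply]
    rw [hconst, hconst]
  · intro i c hc
    simp only [RingHom.coe_comp, RingHom.coe_coe, Function.comp_apply]
    rw [hconst]
    exact hwconst c hc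
  · intro i j
    simp only [RingHom.coe_comp, RingHom.coe_coe, Function.comp_apply]
    rw [hy, hy]
  · intro i
    simp only [RingHom.coe_comp, RingHom.coe_coe, Function.comp_apply]
    rw [hy]
    exact hwy
  · -- invariance of `w` under `σ`
    intro i f
    simp only [RingHom.coe_comp, RingHom.coe_coe, Function.comp_apply, MulAction.toPerm_apply]
    obtain ⟨h, hh, hout⟩ := exists_out_smul H g0 i
    have e : ((g0⁻¹ • i).out)⁻¹ = h⁻¹ * ((i.out)⁻¹ * g0) := by
      rw [hout]
      group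
    rw [e, act_mul, act_mul, hH _ (H.inv_mem hh), hw]
  · -- divisibility
    intro i d hd f hf
    simp only [RingHom.coe_comp, RingHom.coe_coe, Function.comp_apply]
    apply hdvd d
    · intro h0
      apply hf
      have h1 : Φ f = 0 := by
        have := (act (i.out)⁻¹).injective (h0.trans (map_zero _).symm)
        exact this
      exact (map_eq_zero Φ).mp h1
    · -- `g0 ^ d` fixes `τ i f`
      have hfix : g0 ^ d • i = i := by
        have h1 : (MulAction.toPerm g0⁻¹ : Equiv.Perm (G ⧸ H)) ^ d = MulAction.toPerm (g0⁻¹ ^ d) :=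
          ((MulAction.toPermHom G (G ⧸ H)).map_pow g0⁻¹ d).symm
        rw [h1, MulAction.toPerm_apply] at hd
        have h2 : g0 ^ d • (g0⁻¹ ^ d • i) = g0 ^ d • i := by rw [hd]
        rw [smul_smul, inv_pow, mul_inv_cancel, one_smul] at h2
        exact h2.symm
      have hc := conj_mem_of_smul_eq H (g0 ^ d) i hfix
      have e : (i.out)⁻¹ * g0 ^ d = ((i.out)⁻¹ * g0 ^ d * i.out) * (i.out)⁻¹ := by group
      rw [← act_mul, e, act_mul, hH _ hc]
  · -- `σ ^ m = 1`
    have h1 : (MulAction.toPerm g0⁻¹ : Equiv.Perm (G ⧸ H)) ^ m = MulAction.toPerm (g0⁻¹ ^ m) :=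
      ((MulAction.toPermHom G (G ⧸ H)).map_pow g0⁻¹ m).symm
    rw [h1]
    ext i
    rw [MulAction.toPerm_apply, Equiv.Perm.one_apply, inv_pow]
    have h2 := hpow (g0⁻¹ ^ m • i)
    rw [smul_smul, inv_pow, mul_inv_cancel, one_smul] at h2
    exact h2.symm

end Fermat.Agent.S24.DataCore

end
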