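/-
S24 piece B1 (BRIDGE), part PHI: the embedding of the function field `FF L N ⊂ L((q))` of `X₀(N)`
into the fraction field of a ring of functions on the upper half plane, sending the formal
`q`-expansion `jq (q ^ d)` to the function `z ↦ j (d z)` and the constant `c : L` to the constant
function `ι c`.
-/
import Fermat.Agent.S24.Mod.Bridge
import Fermat.Agent.S24.Mod.Ext
import Fermat.Agent.S24.MeroRing

set_option autoImplicit false

noncomputable section

open scoped MatrixGroups
open UpperHalfPlane ModularCurve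

namespace Fermat.Agent.S24.Phi

/-- A subring of functions containing the constants and the `z ↦ j (d z)`, `d ∣ N`, contains all
polynomial expressions in them. -/
theorem evalFun_mem (N : ℕ) (S : Subring (ℍ → ℂ)) (hc : ∀ c : ℂ, (fun _ : ℍ => c) ∈ S)
    (hj : ∀ d : Dv N, S23.JN.jN d.1 ∈ S) (G : MvPolynomial (Dv N) ℂ) : evalFun N G ∈ S := by
  induction G using MvPolynomial.induction_on with
  | C c =>
    rw [evalFun, MvPolynomial.aeval_C]
    exact hc c
  | add p q hp hq =>
    rw [map_add]
    exact S.add_mem hp hq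
  | mul_X p d hp =>
    rw [map_mul]
    refine S.mul_mem hp ?_
    rw [evalFun, MvPolynomial.aeval_X]
    exact hj d

/-- Evaluation of polynomials at the functions `z ↦ j (d z)`, with values in the subring `S`. -/
def evalS (N : ℕ) (S : Subring (ℍ → ℂ)) (hS : ∀ G : MvPolynomial (Dv N) ℂ, evalFun N G ∈ S) :
    MvPolynomial (Dv N) ℂ →+* S :=
  (evalFun N : MvPolynomial (Dv N) ℂ →+* (ℍ → ℂ)).codRestrict S hS

theorem coe_evalS (N : ℕ) (S : Subring (ℍ → ℂ))
    (hS : ∀ G : MvPolynomial (Dv N) ℂ, evalFun N G ∈ S) (G : MvPolynomial (Dv N) ℂ) :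
    ((evalS N S hS G : S) : ℍ → ℂ) = evalFun N G :=
  rfl

variable {L : Type*} [Field L] [Algebra ℚ L] (ι : L →+* ℂ) (N : ℕ) [NeZero N]
variable (S : Subring (ℍ → ℂ)) [IsDomain S] (hS : ∀ G : MvPolynomial (Dv N) ℂ, evalFun N G ∈ S)

theorem exists_hom :
    ∃ Φ : ↥(FF L N) →+* FractionRing S, ∀ P : MvPolynomial (Dv N) L,
      Φ (evalL L N P) = algebraMap S (FractionRing S) (evalS N S hS (MvPolynomial.map ι P)) := by
  refine Ext.exists_hom L N
    ((algebraMap S (FractionRing S)).comp ((evalS N S hS).comp (MvPolynomial.map ι))) ?_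
  intro P
  rw [Bridge.bridgeL ι N P]
  show evalFun N (MvPolynomial.map ι P) = 0 ↔
    algebraMap S (FractionRing S) (evalS N S hS (MvPolynomial.map ι P)) = 0
  rw [map_eq_zero_iff _ (IsFractionRing.injective S (FractionRing S))]
  constructor
  · intro h
    exact Subtype.ext h
  · intro h
    exact congrArg Subtype.val h

/-- The embedding `Φ` of the function field of `X₀(N)` over `L` into the fraction field of a ring
`S` of functions on the upper half plane. -/
def hom : ↥(FF L N) →+* FractionRing S := Classical.choose (exists_hom ι N S hS)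

theorem hom_evalL (P : MvPolynomial (Dv N) L) :
    hom ι N S hS (evalL L N P) =
      algebraMap S (FractionRing S) (evalS N S hS (MvPolynomial.map ι P)) :=
  Classical.choose_spec (exists_hom ι N S hS) P

theorem hom_injective : Function.Injective (hom ι N S hS) := (hom ι N S hS).injective

theorem hom_gen (d : Dv N) (h : S23.JN.jN d.1 ∈ S) :
    hom ι N S hS (gen L N d) = algebraMap S (FractionRing S) ⟨S23.JN.jN d.1, h⟩ := by
  rw [← Ext.evalL_X, hom_evalL]
  congr 1
  apply Subtype.ext
  rw [coe_evalS, MvPolynomial.map_X, evalFun, MvPolynomial.aeval_X]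

theorem hom_algebraMap (c : L) (h : (fun _ : ℍ => ι c) ∈ S) :
    hom ι N S hS (algebraMap L ↥(FF L N) c) = algebraMap S (FractionRing S) ⟨fun _ => ι c, h⟩ := by
  rw [← Ext.evalL_C, hom_evalL]
  congr 1
  apply Subtype.ext
  rw [coe_evalS, MvPolynomial.map_C, evalFun, MvPolynomial.aeval_C]
  rfl

theorem hom_jElt (h : S23.JN.jN 1 ∈ S) :
    hom ι N S hS (jElt L N) = algebraMap S (FractionRing S) ⟨S23.JN.jN 1, h⟩ :=
  hom_gen ι N S hS ⟨1, one_dvd N⟩ h

omit [IsDomain S] in
set_option synthInstance.maxHeartbeats 400000 in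
/-- Uniqueness: a ring hom out of the function field is determined by its values on the constants
and the generators. -/
theorem hom_ext' {𝕃 : Type*} [Field 𝕃] (τ τ' : ↥(FF L N) →+* 𝕃)
    (hc : ∀ c : L, τ (algebraMap L ↥(FF L N) c) = τ' (algebraMap L ↥(FF L N) c))
    (hg : ∀ d : Dv N, τ (gen L N d) = τ' (gen L N d)) : τ = τ' := by
  refine Ext.hom_ext L N τ τ' fun P => ?_
  induction P using MvPolynomial.induction_on with
  | C c => rw [Ext.evalL_C, hc]
  | add p q hp hq => rw [map_add, map_add, map_add, hp, hq]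
  | mul_X p d hp => rw [map_mul, map_mul, map_mul, hp, Ext.evalL_X, hg]

/-! ### The case `S = Mero.ring N` -/

omit [NeZero N] in
theorem evalFun_mem_mero [NeZero N] (G : MvPolynomial (Dv N) ℂ) : evalFun N G ∈ Mero.ring N :=
  evalFun_mem N (Mero.ring N) (fun c => (Mero.const N c).2) (fun d => Mero.isMod_jN d.2) G

/-- The embedding of the function field of `X₀(N)` over `L` into the fraction field of
`Mero.ring N`. -/
def PhiMero : ↥(FF L N) →+* FractionRing (Mero.ring N) :=
  hom ι N (Mero.ring N) (evalFun_mem_mero N)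

theorem PhiMero_evalL (P : MvPolynomial (Dv N) L) :
    PhiMero ι N (evalL L N P) = algebraMap (Mero.ring N) (FractionRing (Mero.ring N))
      (evalS N (Mero.ring N) (evalFun_mem_mero N) (MvPolynomial.map ι P)) :=
  hom_evalL ι N (Mero.ring N) (evalFun_mem_mero N) P

theorem PhiMero_gen (d : Dv N) :
    PhiMero ι N (gen L N d) =
      algebraMap (Mero.ring N) (FractionRing (Mero.ring N)) (Mero.jd N d.1 d.2) :=
  hom_gen ι N (Mero.ring N) (evalFun_mem_mero N) d (Mero.isMod_jN d.2)

theorem PhiMero_algebraMap (c : L) :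
    PhiMero ι N (algebraMap L ↥(FF L N) c) =
      algebraMap (Mero.ring N) (FractionRing (Mero.ring N)) (Mero.const N (ι c)) :=
  hom_algebraMap ι N (Mero.ring N) (evalFun_mem_mero N) c (Mero.const N (ι c)).2

theorem PhiMero_jElt :
    PhiMero ι N (jElt L N) =
      algebraMap (Mero.ring N) (FractionRing (Mero.ring N)) (Mero.jElt N) := by
  rw [jElt, PhiMero_gen, Mero.jd_one]

theorem PhiMero_injective : Function.Injective (PhiMero ι N) := (PhiMero ι N).injective

end Fermat.Agent.S24.Phi

end
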